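/-
(E-MULT), leaf (H1) (helper17): **the `S19.Coord.CoordSystem` of an elliptic curve over `ℚ` at a
prime where the model is only INTEGRAL (no hypothesis on the discriminant), on the subgroup of
"flat" points.**

`W` a Weierstrass curve over `ℚ`, `A ⊂ ℚ̄` a valuation subring over `p` at which `W` is integral.
In helper28's `S40/E/Coord.coordSystem` the unit discriminant is used in exactly two fields,
`inertia_sub_mem` and `exists_lift`.  Both become tautological on

* `unrAll W A`  : the points all of whose `G_ℚ`-conjugates are fixed by the inertia group of `A`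
                  (points defined over an extension of `ℚ` unramified at all places above `p`);
* `flat W A hW` : the points `y` such that every conjugate `τ y` is congruent modulo the kernel of
                  reduction at `A` to a point of `unrAll` — a `G_ℚ`-stable subgroup of `E(ℚ̄)`.

Deliverables:
* `coordSystemFlat`            : `CoordSystem p A ↥(flat W A hW) (actF W A hW)`;
* `exists_isHopfOrder_flat`    : every finite `G_ℚ`-stable `M ≤ flat W A hW` carries a Hopf order
                                 over `ℤ_(p)` (`S19.Order.OrderTargetProof.orderTarget`);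
* `exists_peu_flat`            : if moreover `p` is odd and `p M = 0`: a finite Galois extension
                                 `L / ℚ_p` with Fontaine's property, all of whose unramified
                                 enlargements are "peu ramifiées", and such that the local
                                 automorphisms fixing `L` fix `M` pointwise;
* `exists_norm_eq_zpow_of_flat`: the (PEU) package of `S40/P/PeuPack` with `M ≤ flat` in place of
                                 good reduction.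
-/
import Mathlib
import Fermat.Agent.S40.E.Main
import Fermat.Agent.S40.P.PeuPack

set_option autoImplicit false
set_option linter.style.haveILetI false
set_option linter.unusedSectionVars false

namespace Fermat.Agent.S40.EM.CoordFlat

open WeierstrassCurve WeierstrassCurve.Affine Fermat.Agent.S05 Fermat.Agent.S19.Abs
  Fermat.Agent.S19.Coord Fermat.Agent.S19.Order Fermat.Agent.S40.E Fermat.Agent.S40.E.Defs
  Fermat.Agent.S56.Flat

variable (W : Affine ℚ) (A : ValuationSubring Qb)

/-! ### Points unramified at every place above `p` -/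

/-- the points all of whose conjugates are fixed by the inertia group of `A` -/
noncomputable def unrAll : AddSubgroup (W⁄Qb).Point where
  carrier := {P | ∀ τ : GQ, τ • P ∈ Stab.unrPts W A}
  zero_mem' := fun τ => by
    rw [Inertia.smul_zero_point]
    exact (Stab.unrPts W A).zero_mem
  add_mem' := by
    intro P Q hP hQ τ
    rw [Inertia.smul_add_point]
    exact (Stab.unrPts W A).add_mem (hP τ) (hQ τ)
  neg_mem' := by
    intro P hP τ
    rw [Inertia.smul_neg_point]
    exact (Stab.unrPts W A).neg_mem (hP τ)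

variable {W A}

theorem mem_unrAll {P : (W⁄Qb).Point} :
    P ∈ unrAll W A ↔ ∀ τ : GQ, ∀ σ ∈ A.inertiaSubgroupIn ℚ, σ • (τ • P) = τ • P := Iff.rfl

theorem smul_mem_unrAll (ρ : GQ) {P : (W⁄Qb).Point} (hP : P ∈ unrAll W A) :
    ρ • P ∈ unrAll W A := by
  intro τ
  rw [← mul_smul]
  exact hP (τ * ρ)

theorem unrAll_le_unrPts : unrAll W A ≤ Stab.unrPts W A := by
  intro P hP
  have := hP 1
  rwa [one_smul] at this

/-! ### The flat points -/

variable (W A)

/-- the points every conjugate of which is congruent modulo the kernel of reduction at `A` to a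
point of `unrAll` -/
noncomputable def flat (hW : IntegralAt (W⁄Qb) A) : AddSubgroup (W⁄Qb).Point where
  carrier := {y | ∀ τ : GQ, ∃ x ∈ unrAll W A, τ • y - x ∈ Reduction.kerRed A hW}
  zero_mem' := fun τ => ⟨0, (unrAll W A).zero_mem, by
    rw [Inertia.smul_zero_point, sub_zero]
    exact (Reduction.kerRed A hW).zero_mem⟩
  add_mem' := by
    intro y y' hy hy' τ
    obtain ⟨x, hx, hxy⟩ := hy τ
    obtain ⟨x', hx', hxy'⟩ := hy' τ
    refine ⟨x + x', (unrAll W A).add_mem hx hx', ?_⟩
    rw [Inertia.smul_add_point, add_sub_add_comm]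
    exact (Reduction.kerRed A hW).add_mem hxy hxy'
  neg_mem' := by
    intro y hy τ
    obtain ⟨x, hx, hxy⟩ := hy τ
    refine ⟨-x, (unrAll W A).neg_mem hx, ?_⟩
    rw [Inertia.smul_neg_point, ← neg_sub', ]
    exact (Reduction.kerRed A hW).neg_mem hxy

variable {W A}

theorem mem_flat {hW : IntegralAt (W⁄Qb) A} {y : (W⁄Qb).Point} :
    y ∈ flat W A hW ↔ ∀ τ : GQ, ∃ x ∈ unrAll W A, τ • y - x ∈ Reduction.kerRed A hW := Iff.rfl

theorem smul_mem_flat {hW : IntegralAt (W⁄Qb) A} (ρ : GQ) {y : (W⁄Qb).Point}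
    (hy : y ∈ flat W A hW) : ρ • y ∈ flat W A hW := by
  intro τ
  rw [← mul_smul]
  exact hy (τ * ρ)

theorem unrAll_le_flat (hW : IntegralAt (W⁄Qb) A) : unrAll W A ≤ flat W A hW := by
  intro x hx τ
  refine ⟨τ • x, smul_mem_unrAll τ hx, ?_⟩
  rw [sub_self]
  exact (Reduction.kerRed A hW).zero_mem

/-- a `G_ℚ`-stable set of points each of which is congruent to a point of `unrAll` lies in `flat` -/
theorem le_flat_of_forall {hW : IntegralAt (W⁄Qb) A} {M : AddSubgroup (W⁄Qb).Point}
    (hM : ∀ σ : GQ, ∀ y ∈ M, Stab.actE W σ y ∈ M)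
    (h : ∀ y ∈ M, ∃ x ∈ unrAll W A, y - x ∈ Reduction.kerRed A hW) : M ≤ flat W A hW :=
  fun y hy τ => h _ (hM τ y hy)

/-! ### The Galois action on the flat points -/

variable (W A)

/-- the Galois action on the flat points -/
noncomputable def actF (hW : IntegralAt (W⁄Qb) A) (σ : GQ) (y : flat W A hW) : flat W A hW :=
  ⟨σ • (y : (W⁄Qb).Point), smul_mem_flat σ y.2⟩

variable {W A}

@[simp] theorem coe_actF (hW : IntegralAt (W⁄Qb) A) (σ : GQ) (y : flat W A hW) :
    ((actF W A hW σ y : flat W A hW) : (W⁄Qb).Point) = σ • (y : (W⁄Qb).Point) := rfl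

theorem isGalAction_actF (hW : IntegralAt (W⁄Qb) A) : IsGalAction (actF W A hW) where
  one := fun y => Subtype.ext (one_smul GQ (y : (W⁄Qb).Point))
  mul := fun σ τ y => Subtype.ext (mul_smul σ τ (y : (W⁄Qb).Point))
  add := fun σ y y' => Subtype.ext (smul_add σ (y : (W⁄Qb).Point) (y' : (W⁄Qb).Point))

theorem exists_finiteDimensional_fixing_flat (hW : IntegralAt (W⁄Qb) A) (y : flat W A hW) :
    ∃ E : IntermediateField ℚ Qb, FiniteDimensional ℚ E ∧
      ∀ σ : GQ, (∀ x ∈ E, σ x = x) → actF W A hW σ y = y := by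
  obtain ⟨E, hE, h⟩ := Stab.exists_finiteDimensional_fixing W (y : (W⁄Qb).Point)
  exact ⟨E, hE, fun σ hσ => Subtype.ext (h σ hσ)⟩

/-! ### The contract -/

variable {p : ℕ}

/-- **The contract `S19.Coord.CoordSystem` on the flat points of an integral Weierstrass curve.** -/
noncomputable def coordSystemFlat (hp : p.Prime) (hA : A.LiesOverPrime p)
    (hW : IntegralAt (W⁄Qb) A) : CoordSystem p A (flat W A hW) (actF W A hW) where
  g := 1
  J1 := (Reduction.kerRed A hW).comap (flat W A hW).subtype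
  U := (unrAll W A).comap (flat W A hW).subtype
  IsCoord := fun n z a => Coord.IsCoordE W A p n (z : (W⁄Qb).Point) a
  mem_J1 := fun h => (Reduction.mem_kerRed A hW).2 h.1
  nonunit := fun h i => h.nonunit i
  exists_rep := fun {z} hz n =>
    Coord.isCoordE_exists_rep hW ((Reduction.mem_kerRed A hW).1 hz) n
  congr := fun h h' i => h.congr h' i
  of_congr := fun h ha' hc => h.of_congr ha' hc
  J1_stable := fun σ hσ z hz =>
    (Reduction.mem_kerRed A hW).2 (Reduction.inE1_smul A hσ ((Reduction.mem_kerRed A hW).1 hz))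
  equivariant := fun σ hσ n e _ =>
    ⟨fun i => MvPolynomial.X i, fun i => UnrPoly.unrCoeffs_X i, fun {z a} h _ => by
      simp only [MvPolynomial.aeval_X]
      exact h.smul hσ⟩
  equivariant_inertia := fun σ hσ {n z a} h =>
    h.smul (Inertia.mem_decompositionSubgroup_of_mem_inertiaSubgroupIn A hσ)
  mono := fun h => h.mono
  zero := fun n => Coord.isCoordE_zero n
  law := fun n e _ => by
    obtain ⟨F, hF, h⟩ := Coord.isCoordE_law (W := W) (A := A) hp hW n e
    exact ⟨F, hF, fun {z z' a a'} hz hz' ha ha' => h hz hz' ha ha'⟩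
  separated := fun {z} hz h => Subtype.ext
    (Coord.isCoordE_separated hp hA hW ((Reduction.mem_kerRed A hW).1 hz) h)
  inertia_sub_mem := fun σ hσ y => by
    obtain ⟨x, hx, hxy⟩ := y.2 1
    rw [one_smul] at hxy
    have hσD := Inertia.mem_decompositionSubgroup_of_mem_inertiaSubgroupIn A hσ
    have hσx : σ • x = x := by
      have := hx 1 σ hσ
      rwa [one_smul] at this
    have h1 : σ • ((y : (W⁄Qb).Point) - x) ∈ Reduction.kerRed A hW :=
      (Reduction.mem_kerRed A hW).2 (Reduction.inE1_smul A hσD ((Reduction.mem_kerRed A hW).1 hxy))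
    have h2 := (Reduction.kerRed A hW).sub_mem h1 hxy
    rw [Inertia.smul_sub_point, hσx, sub_sub_sub_cancel_right] at h2
    exact h2
  U_fixed := fun σ hσ z hz => Subtype.ext (by
    have := hz 1 σ hσ
    rwa [one_smul] at this)
  U_stable := fun σ _ z hz => smul_mem_unrAll σ hz
  exists_lift := fun y => by
    obtain ⟨x, hx, hxy⟩ := y.2 1
    rw [one_smul] at hxy
    exact ⟨⟨x, unrAll_le_flat hW hx⟩, hx, hxy⟩
  rational_stab := fun {z} hz n => by
    obtain ⟨a, ha, h⟩ := Coord.isCoordE_rational_stab (p := p) hW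
      ((Reduction.mem_kerRed A hW).1 hz) n
    exact ⟨a, ha, fun σ hσ hσz i => h σ hσ (congrArg Subtype.val hσz) i⟩

/-! ### Hopf orders on flat subgroups -/

section Order

variable [Fact p.Prime]

/-- a subgroup of the points contained in `flat`, as a subgroup of `↥flat` -/
noncomputable def sub (hW : IntegralAt (W⁄Qb) A) (M : AddSubgroup (W⁄Qb).Point) :
    AddSubgroup (flat W A hW) :=
  M.comap (flat W A hW).subtype

theorem finite_sub (hW : IntegralAt (W⁄Qb) A) (M : AddSubgroup (W⁄Qb).Point) (hfin : Finite M) :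
    Finite (sub hW M) := by
  haveI := hfin
  refine Finite.of_injective (fun y : sub hW M => (⟨(y : flat W A hW), y.2⟩ : M)) ?_
  intro y y' h
  exact Subtype.ext (Subtype.ext (congrArg (fun z : M => (z : (W⁄Qb).Point)) h))

theorem sub_stable (hW : IntegralAt (W⁄Qb) A) (M : AddSubgroup (W⁄Qb).Point)
    (hM : ∀ σ : GQ, ∀ y ∈ M, Stab.actE W σ y ∈ M) :
    ∀ σ : GQ, ∀ y ∈ sub hW M, actF W A hW σ y ∈ sub hW M :=
  fun σ _ hy => hM σ _ hy

/-- the Galois action on `sub hW M` -/
noncomputable def actSubF (hW : IntegralAt (W⁄Qb) A) (M : AddSubgroup (W⁄Qb).Point)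
    (hM : ∀ σ : GQ, ∀ y ∈ M, Stab.actE W σ y ∈ M) (σ : GQ) (y : sub hW M) : sub hW M :=
  ⟨actF W A hW σ y, sub_stable hW M hM σ y y.2⟩

theorem isGalAction_actSubF (hW : IntegralAt (W⁄Qb) A) (M : AddSubgroup (W⁄Qb).Point)
    (hM : ∀ σ : GQ, ∀ y ∈ M, Stab.actE W σ y ∈ M) : IsGalAction (actSubF hW M hM) where
  one := fun y => Subtype.ext ((isGalAction_actF hW).one y)
  mul := fun σ τ y => Subtype.ext ((isGalAction_actF hW).mul σ τ y)
  add := fun σ y y' => Subtype.ext ((isGalAction_actF hW).add σ y y')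

/-- **(E-MULT)(H1).**  Every finite `G_ℚ`-stable subgroup of the flat points carries a Hopf order
over `ℤ_(p)`. -/
theorem exists_isHopfOrder_flat (hA : A.LiesOverPrime p) (hW : IntegralAt (W⁄Qb) A)
    (M : AddSubgroup (W⁄Qb).Point) (hfin : Finite M)
    (hM : ∀ σ : GQ, ∀ y ∈ M, Stab.actE W σ y ∈ M) :
    ∃ Hs : Subalgebra (GaloisRep.ratLocalizedAt p) (sub hW M → Qb),
      IsHopfOrder p (actSubF hW M hM) Hs :=
  OrderTargetProof.orderTarget p A hA (flat W A hW) (actF W A hW) (isGalAction_actF hW)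
    (coordSystemFlat Fact.out hA hW) (exists_finiteDimensional_fixing_flat hW) (sub hW M)
    (finite_sub hW M hfin) (sub_stable hW M hM)

end Order

/-! ### The (PEU) layer -/

section Peu

open Fermat.Agent.S56.Flat.PointsField Fermat.Agent.S56.Flat.KummerBound
  Fermat.Agent.S56.Flat.Etale.Connected Fermat.Agent.S55.Local.Unram
  Fermat.Agent.S40.P.PeuUnram Fermat.Agent.S40.P.PeuPack

variable [Fact p.Prime]

local notation "Ω" => PadicAlgCl p

/-- **(E-MULT)(H1), Kummer form.**  `p` odd, `M ≤ flat` finite `G_ℚ`-stable killed by `p`: there is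
a finite Galois extension `L / ℚ_p` with Fontaine's property, all of whose unramified enlargements
are "peu ramifiées", such that the local automorphisms fixing `L` pointwise fix `M` pointwise. -/
theorem exists_peu_flat (hp2 : p ≠ 2) (hA : A.LiesOverPrime p) (hW : IntegralAt (W⁄Qb) A)
    (M : AddSubgroup (W⁄Qb).Point) (hfin : Finite M)
    (hM : ∀ σ : GQ, ∀ y ∈ M, Stab.actE W σ y ∈ M) (hle : M ≤ flat W A hW)
    (hpM : ∀ y ∈ M, p • y = 0) :
    ∃ L : IntermediateField ℚ_[p] Ω, FiniteDimensional ℚ_[p] L ∧ IsGalois ℚ_[p] L ∧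
      FontaineProp p L ∧
      (∀ E₀ : IntermediateField ℚ_[p] Ω, IsUnramifiedIn ℤ_[p] E₀ → IsPeuRamifie p (L ⊔ E₀)) ∧
      ∀ τ : Ω ≃ₐ[ℚ_[p]] Ω, (∀ y ∈ L, τ y = y) →
        ∀ y ∈ M, Stab.actE W (localGaloisToGlobal p τ) y = y := by
  obtain ⟨Hs, hHs⟩ := exists_isHopfOrder_flat hA hW M hfin hM
  haveI : Finite (sub hW M) := finite_sub hW M hfin
  haveI : FiniteDimensional ℚ_[p] (pointsField p Hs) := finiteDimensional_pointsField hHs
  haveI : IsGalois ℚ_[p] (pointsField p Hs) := isGalois_pointsField hHs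
  have hFont : FontaineProp p (pointsField p Hs) :=
    fontaineProp_pointsField (isGalAction_actSubF hW M hM) hHs fun y => Subtype.ext (Subtype.ext (by
      have := hpM _ y.2
      simpa using this))
  refine ⟨pointsField p Hs, inferInstance, inferInstance, hFont,
    fun E₀ hE₀ => isPeuRamifie_sup_of_fontaineProp hp2 hFont hE₀, ?_⟩
  intro τ hτ y hy
  have h1 := act_eq_of_fixes_pointsField hHs hτ ⟨⟨y, hle hy⟩, hy⟩
  exact congrArg (fun z : sub hW M => ((z : flat W A hW) : (W⁄Qb).Point)) h1

/-- **(PEU) for a flat subgroup**: the package of `S40/P/PeuPack` with `M ≤ flat` in place of good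
reduction. -/
theorem exists_norm_eq_zpow_of_flat (hp2 : p ≠ 2) (hA : A.LiesOverPrime p)
    (hW : IntegralAt (W⁄Qb) A)
    (M : AddSubgroup (W⁄Qb).Point) (hfin : Finite M)
    (hM : ∀ σ : GQ, ∀ y ∈ M, Stab.actE W σ y ∈ M) (hle : M ≤ flat W A hW)
    (hpM : ∀ y ∈ M, p • y = 0)
    {ζ : Qb} (hζ : IsPrimitiveRoot ζ p)
    (hζM : ∀ σ : GQ, (∀ y ∈ M, Stab.actE W σ y = y) → σ ζ = ζ)
    {U : Qb} (hU : U ≠ 0)
    (h1 : ∀ σ ∈ (padicPlace p).inertiaSubgroupIn ℚ, (σ U / U) ^ p = 1)
    (h2 : ∀ σ ∈ (padicPlace p).inertiaSubgroupIn ℚ,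
      (∀ y ∈ M, Stab.actE W σ y = y) → σ U = U) :
    ∃ m : ℤ, ‖padicEmbedding p U‖ = (p : ℝ) ^ m := by
  obtain ⟨Hs, hHs⟩ := exists_isHopfOrder_flat hA hW M hfin hM
  haveI : Finite (sub hW M) := finite_sub hW M hfin
  have hsub : ∀ σ : GQ, (∀ y : sub hW M, actSubF hW M hM σ y = y) →
      ∀ y ∈ M, Stab.actE W σ y = y := fun σ hσ y hy =>
    congrArg (fun z : sub hW M => ((z : flat W A hW) : (W⁄Qb).Point)) (hσ ⟨⟨y, hle hy⟩, hy⟩)
  exact exists_norm_eq_zpow_of_isHopfOrder hp2 (isGalAction_actSubF hW M hM) hHs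
    (fun y => Subtype.ext (Subtype.ext (by
      have := hpM _ y.2
      simpa using this))) hζ
    (fun σ hσ => hζM σ (hsub σ hσ)) hU h1 (fun σ hσI hσ => h2 σ hσI (hsub σ hσ))

end Peu

end Fermat.Agent.S40.EM.CoordFlat
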