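/-
(E-MULT), leaf (H1), general form (helper17): **the `S19.Coord.CoordSystem` of an elliptic curve
over `ℚ` at a prime where the model is only INTEGRAL, on an arbitrary "good" subgroup of points.**

`W` a Weierstrass curve over `ℚ`, `A ⊂ ℚ̄` a valuation subring over `p` at which `W` is integral.
A subgroup `S ≤ E(ℚ̄)` is GOOD (`IsGood`) if it is `G_ℚ`-stable and every `y ∈ S` is congruent
modulo the kernel of reduction at `A` to a point of `S` fixed by the inertia group of `A`.
(The two fields of helper28's `S40/E/Coord.coordSystem` which use the unit discriminant,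
`inertia_sub_mem` and `exists_lift`, are exactly this.)  Examples: `CoordFlat.flat`
(`isGood_flat`); helper20's `core = {y | ∀ τ, τ y ∈ E(ℚ̄^{I_A}) + kerRed}` once the special lifts
are available; the subgroup generated by a `G_ℚ`-stable set of points each of which has a lift in
that subgroup (`isGood_closure`).

Deliverables (all for a good `S`):
* `coordSystemGood`            : `CoordSystem p A ↥S (actG S hS)`;
* `exists_isHopfOrder_good`    : every finite `G_ℚ`-stable `M ≤ S` carries a Hopf order over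
                                 `ℤ_(p)`;
* `exists_peu_good`            : `p` odd, `p M = 0`: a finite Galois `L / ℚ_p` with Fontaine's
                                 property, all of whose unramified enlargements are "peu
                                 ramifiées", such that the local automorphisms fixing `L` fix `M`;
* `exists_norm_eq_zpow_of_good`: the (PEU) package of `S40/P/PeuPack`.
-/
import Mathlib
import Fermat.Agent.S40.EM.CoordFlat

set_option autoImplicit false
set_option linter.style.haveILetI false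
set_option linter.unusedSectionVars false

namespace Fermat.Agent.S40.EM.CoordGood

open WeierstrassCurve WeierstrassCurve.Affine Fermat.Agent.S05 Fermat.Agent.S19.Abs
  Fermat.Agent.S19.Coord Fermat.Agent.S19.Order Fermat.Agent.S40.E Fermat.Agent.S40.E.Defs
  Fermat.Agent.S56.Flat

variable {W : Affine ℚ} {A : ValuationSubring Qb}

/-- **Good subgroups**: `G_ℚ`-stable, and every element is congruent modulo the kernel of
reduction at `A` to an inertia-fixed element of the subgroup. -/
structure IsGood (hW : IntegralAt (W⁄Qb) A) (S : AddSubgroup (W⁄Qb).Point) : Prop where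
  stable : ∀ σ : GQ, ∀ y ∈ S, σ • y ∈ S
  lift : ∀ y ∈ S, ∃ x ∈ S, (∀ σ ∈ A.inertiaSubgroupIn ℚ, σ • x = x) ∧
    y - x ∈ Reduction.kerRed A hW

/-- `CoordFlat.flat` is good. -/
theorem isGood_flat (hW : IntegralAt (W⁄Qb) A) : IsGood hW (CoordFlat.flat W A hW) where
  stable := fun σ _ hy => CoordFlat.smul_mem_flat σ hy
  lift := fun y hy => by
    obtain ⟨x, hx, hxy⟩ := hy 1
    rw [one_smul] at hxy
    refine ⟨x, CoordFlat.unrAll_le_flat hW hx, fun σ hσ => ?_, hxy⟩
    have := hx 1 σ hσ
    rwa [one_smul] at this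

/-- The subgroup generated by a `G_ℚ`-stable set of points, each of which is congruent modulo the
kernel of reduction to an inertia-fixed point of that subgroup, is good. -/
theorem isGood_closure (hW : IntegralAt (W⁄Qb) A) (C : Set (W⁄Qb).Point)
    (hC : ∀ σ : GQ, ∀ y ∈ C, σ • y ∈ C)
    (hlift : ∀ y ∈ C, ∃ x ∈ AddSubgroup.closure C, (∀ σ ∈ A.inertiaSubgroupIn ℚ, σ • x = x) ∧
      y - x ∈ Reduction.kerRed A hW) : IsGood hW (AddSubgroup.closure C) where
  stable := by
    intro σ y hy
    induction hy using AddSubgroup.closure_induction with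
    | mem y hy => exact AddSubgroup.subset_closure (hC σ y hy)
    | zero =>
      rw [Inertia.smul_zero_point]
      exact (AddSubgroup.closure C).zero_mem
    | add y y' _ _ ih ih' =>
      rw [Inertia.smul_add_point]
      exact (AddSubgroup.closure C).add_mem ih ih'
    | neg y _ ih =>
      rw [Inertia.smul_neg_point]
      exact (AddSubgroup.closure C).neg_mem ih
  lift := by
    intro y hy
    induction hy using AddSubgroup.closure_induction with
    | mem y hy => exact hlift y hy
    | zero =>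
      refine ⟨0, (AddSubgroup.closure C).zero_mem, fun σ _ => Inertia.smul_zero_point σ, ?_⟩
      rw [sub_zero]
      exact (Reduction.kerRed A hW).zero_mem
    | add y y' _ _ ih ih' =>
      obtain ⟨x, hx, hσx, hxy⟩ := ih
      obtain ⟨x', hx', hσx', hxy'⟩ := ih'
      refine ⟨x + x', (AddSubgroup.closure C).add_mem hx hx', fun σ hσ => ?_, ?_⟩
      · rw [Inertia.smul_add_point, hσx σ hσ, hσx' σ hσ]
      · rw [add_sub_add_comm]
        exact (Reduction.kerRed A hW).add_mem hxy hxy'
    | neg y _ ih =>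
      obtain ⟨x, hx, hσx, hxy⟩ := ih
      refine ⟨-x, (AddSubgroup.closure C).neg_mem hx, fun σ hσ => ?_, ?_⟩
      · rw [Inertia.smul_neg_point, hσx σ hσ]
      · rw [← neg_sub']
        exact (Reduction.kerRed A hW).neg_mem hxy

/-! ### The local flat points and their `G_ℚ`-stable core -/

section Core

variable (W A)

/-- the points congruent modulo the kernel of reduction at `A` to a point fixed by the inertia
group of `A` (NOT `G_ℚ`-stable: it depends on `A`) -/
noncomputable def localFlat (hW : IntegralAt (W⁄Qb) A) : AddSubgroup (W⁄Qb).Point where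
  carrier := {y | ∃ x ∈ Stab.unrPts W A, y - x ∈ Reduction.kerRed A hW}
  zero_mem' := ⟨0, (Stab.unrPts W A).zero_mem, by
    rw [sub_zero]
    exact (Reduction.kerRed A hW).zero_mem⟩
  add_mem' := by
    rintro y y' ⟨x, hx, hxy⟩ ⟨x', hx', hxy'⟩
    refine ⟨x + x', (Stab.unrPts W A).add_mem hx hx', ?_⟩
    rw [add_sub_add_comm]
    exact (Reduction.kerRed A hW).add_mem hxy hxy'
  neg_mem' := by
    rintro y ⟨x, hx, hxy⟩
    refine ⟨-x, (Stab.unrPts W A).neg_mem hx, ?_⟩
    rw [← neg_sub']
    exact (Reduction.kerRed A hW).neg_mem hxy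

/-- the largest `G_ℚ`-stable subgroup of `localFlat` -/
noncomputable def core (hW : IntegralAt (W⁄Qb) A) : AddSubgroup (W⁄Qb).Point where
  carrier := {y | ∀ τ : GQ, τ • y ∈ localFlat W A hW}
  zero_mem' := fun τ => by
    rw [Inertia.smul_zero_point]
    exact (localFlat W A hW).zero_mem
  add_mem' := by
    intro y y' hy hy' τ
    rw [Inertia.smul_add_point]
    exact (localFlat W A hW).add_mem (hy τ) (hy' τ)
  neg_mem' := by
    intro y hy τ
    rw [Inertia.smul_neg_point]
    exact (localFlat W A hW).neg_mem (hy τ)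

variable {W A}

theorem mem_localFlat {hW : IntegralAt (W⁄Qb) A} {y : (W⁄Qb).Point} :
    y ∈ localFlat W A hW ↔ ∃ x, (∀ σ ∈ A.inertiaSubgroupIn ℚ, σ • x = x) ∧
      y - x ∈ Reduction.kerRed A hW :=
  ⟨fun ⟨x, hx, h⟩ => ⟨x, hx, h⟩, fun ⟨x, hx, h⟩ => ⟨x, hx, h⟩⟩

theorem mem_core {hW : IntegralAt (W⁄Qb) A} {y : (W⁄Qb).Point} :
    y ∈ core W A hW ↔ ∀ τ : GQ, τ • y ∈ localFlat W A hW := Iff.rfl

theorem core_le_localFlat (hW : IntegralAt (W⁄Qb) A) : core W A hW ≤ localFlat W A hW := by
  intro y hy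
  have := hy 1
  rwa [one_smul] at this

/-- a `G_ℚ`-stable subgroup of `localFlat` lies in the core -/
theorem le_core_of_stable {hW : IntegralAt (W⁄Qb) A} {M : AddSubgroup (W⁄Qb).Point}
    (hM : ∀ σ : GQ, ∀ y ∈ M, Stab.actE W σ y ∈ M) (h : M ≤ localFlat W A hW) :
    M ≤ core W A hW :=
  fun y hy τ => h (hM τ y hy)

/-- **The core is good as soon as the special lifts exist** (helper20's lemma (C)): every point of
`localFlat` is congruent to an inertia-fixed point all of whose conjugates lie in `localFlat`. -/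
theorem isGood_core (hW : IntegralAt (W⁄Qb) A)
    (hlift : ∀ y ∈ localFlat W A hW, ∃ x, (∀ σ ∈ A.inertiaSubgroupIn ℚ, σ • x = x) ∧
      y - x ∈ Reduction.kerRed A hW ∧ ∀ τ : GQ, τ • x ∈ localFlat W A hW) :
    IsGood hW (core W A hW) where
  stable := by
    intro σ y hy τ
    rw [← mul_smul]
    exact hy (τ * σ)
  lift := by
    intro y hy
    obtain ⟨x, hσx, hxy, hx⟩ := hlift y (core_le_localFlat hW hy)
    exact ⟨x, hx, hσx, hxy⟩

end Core

/-! ### The Galois action on a good subgroup -/

section Act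

variable {hW : IntegralAt (W⁄Qb) A} {S : AddSubgroup (W⁄Qb).Point}

/-- the Galois action on a good subgroup -/
noncomputable def actG (hS : IsGood hW S) (σ : GQ) (y : S) : S :=
  ⟨σ • (y : (W⁄Qb).Point), hS.stable σ y y.2⟩

@[simp] theorem coe_actG (hS : IsGood hW S) (σ : GQ) (y : S) :
    ((actG hS σ y : S) : (W⁄Qb).Point) = σ • (y : (W⁄Qb).Point) := rfl

theorem isGalAction_actG (hS : IsGood hW S) : IsGalAction (actG hS) where
  one := fun y => Subtype.ext (one_smul GQ (y : (W⁄Qb).Point))
  mul := fun σ τ y => Subtype.ext (mul_smul σ τ (y : (W⁄Qb).Point))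
  add := fun σ y y' => Subtype.ext (smul_add σ (y : (W⁄Qb).Point) (y' : (W⁄Qb).Point))

theorem exists_finiteDimensional_fixing_good (hS : IsGood hW S) (y : S) :
    ∃ E : IntermediateField ℚ Qb, FiniteDimensional ℚ E ∧
      ∀ σ : GQ, (∀ x ∈ E, σ x = x) → actG hS σ y = y := by
  obtain ⟨E, hE, h⟩ := Stab.exists_finiteDimensional_fixing W (y : (W⁄Qb).Point)
  exact ⟨E, hE, fun σ hσ => Subtype.ext (h σ hσ)⟩

end Act

/-! ### The contract -/

variable {p : ℕ}

/-- **The contract `S19.Coord.CoordSystem` on a good subgroup of an integral Weierstrass curve.** -/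
noncomputable def coordSystemGood (hp : p.Prime) (hA : A.LiesOverPrime p)
    (hW : IntegralAt (W⁄Qb) A) {S : AddSubgroup (W⁄Qb).Point} (hS : IsGood hW S) :
    CoordSystem p A S (actG hS) where
  g := 1
  J1 := (Reduction.kerRed A hW).comap S.subtype
  U := (Stab.unrPts W A).comap S.subtype
  IsCoord := fun n z a => Coord.IsCoordE W A p n (z : (W⁄Qb).Point) a
  mem_J1 := fun h => (Reduction.mem_kerRed A hW).2 h.1
  nonunit := fun h i => h.nonunit i
  exists_rep := fun {z} hz n =>
    Coord.isCoordE_exists_rep hW ((Reduction.mem_kerRed A hW).1 hz) n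
  congr := fun h h' i => h.congr h' i
  of_congr := fun h ha' hc => h.of_congr ha' hc
  J1_stable := fun σ hσ z hz =>
    (Reduction.mem_kerRed A hW).2 (Reduction.inE1_smul A hσ ((Reduction.mem_kerRed A hW).1 hz))
  equivariant := fun σ hσ n e _ =>
    ⟨fun i => MvPolynomial.X i, fun i => UnrPoly.unrCoeffs_X i, fun {z a} h _ => by
      simp only [MvPolynomial.aeval_X]
      exact h.smul hσ⟩
  equivariant_inertia := fun σ hσ {n z a} h =>
    h.smul (Inertia.mem_decompositionSubgroup_of_mem_inertiaSubgroupIn A hσ)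
  mono := fun h => h.mono
  zero := fun n => Coord.isCoordE_zero n
  law := fun n e _ => by
    obtain ⟨F, hF, h⟩ := Coord.isCoordE_law (W := W) (A := A) hp hW n e
    exact ⟨F, hF, fun {z z' a a'} hz hz' ha ha' => h hz hz' ha ha'⟩
  separated := fun {z} hz h => Subtype.ext
    (Coord.isCoordE_separated hp hA hW ((Reduction.mem_kerRed A hW).1 hz) h)
  inertia_sub_mem := fun σ hσ y => by
    obtain ⟨x, _, hσx, hxy⟩ := hS.lift y y.2
    have hσD := Inertia.mem_decompositionSubgroup_of_mem_inertiaSubgroupIn A hσ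
    have h1 : σ • ((y : (W⁄Qb).Point) - x) ∈ Reduction.kerRed A hW :=
      (Reduction.mem_kerRed A hW).2 (Reduction.inE1_smul A hσD ((Reduction.mem_kerRed A hW).1 hxy))
    have h2 := (Reduction.kerRed A hW).sub_mem h1 hxy
    rw [Inertia.smul_sub_point, hσx σ hσ, sub_sub_sub_cancel_right] at h2
    exact h2
  U_fixed := fun σ hσ z hz => Subtype.ext (hz σ hσ)
  U_stable := fun σ hσ z hz => Stab.unrPts_stable W A σ hσ _ hz
  exists_lift := fun y => by
    obtain ⟨x, hx, hσx, hxy⟩ := hS.lift y y.2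
    exact ⟨⟨x, hx⟩, hσx, hxy⟩
  rational_stab := fun {z} hz n => by
    obtain ⟨a, ha, h⟩ := Coord.isCoordE_rational_stab (p := p) hW
      ((Reduction.mem_kerRed A hW).1 hz) n
    exact ⟨a, ha, fun σ hσ hσz i => h σ hσ (congrArg Subtype.val hσz) i⟩

/-! ### Hopf orders on subgroups of a good subgroup -/

section Order

variable [Fact p.Prime] {hW : IntegralAt (W⁄Qb) A} {S : AddSubgroup (W⁄Qb).Point}

/-- a subgroup of the points, as a subgroup of `↥S` -/
noncomputable def sub (S M : AddSubgroup (W⁄Qb).Point) : AddSubgroup S :=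
  M.comap S.subtype

theorem finite_sub (S M : AddSubgroup (W⁄Qb).Point) (hfin : Finite M) : Finite (sub S M) := by
  haveI := hfin
  refine Finite.of_injective (fun y : sub S M => (⟨(y : S), y.2⟩ : M)) ?_
  intro y y' h
  exact Subtype.ext (Subtype.ext (congrArg (fun z : M => (z : (W⁄Qb).Point)) h))

theorem sub_stable (hS : IsGood hW S) (M : AddSubgroup (W⁄Qb).Point)
    (hM : ∀ σ : GQ, ∀ y ∈ M, Stab.actE W σ y ∈ M) :
    ∀ σ : GQ, ∀ y ∈ sub S M, actG hS σ y ∈ sub S M :=
  fun σ _ hy => hM σ _ hy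

/-- the Galois action on `sub S M` -/
noncomputable def actSubG (hS : IsGood hW S) (M : AddSubgroup (W⁄Qb).Point)
    (hM : ∀ σ : GQ, ∀ y ∈ M, Stab.actE W σ y ∈ M) (σ : GQ) (y : sub S M) : sub S M :=
  ⟨actG hS σ y, sub_stable hS M hM σ y y.2⟩

theorem isGalAction_actSubG (hS : IsGood hW S) (M : AddSubgroup (W⁄Qb).Point)
    (hM : ∀ σ : GQ, ∀ y ∈ M, Stab.actE W σ y ∈ M) : IsGalAction (actSubG hS M hM) where
  one := fun y => Subtype.ext ((isGalAction_actG hS).one y)
  mul := fun σ τ y => Subtype.ext ((isGalAction_actG hS).mul σ τ y)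
  add := fun σ y y' => Subtype.ext ((isGalAction_actG hS).add σ y y')

/-- **(E-MULT)(H1), general form.**  Every finite `G_ℚ`-stable subgroup of a good subgroup carries a
Hopf order over `ℤ_(p)`. -/
theorem exists_isHopfOrder_good (hA : A.LiesOverPrime p) (hS : IsGood hW S)
    (M : AddSubgroup (W⁄Qb).Point) (hfin : Finite M)
    (hM : ∀ σ : GQ, ∀ y ∈ M, Stab.actE W σ y ∈ M) :
    ∃ Hs : Subalgebra (GaloisRep.ratLocalizedAt p) (sub S M → Qb),
      IsHopfOrder p (actSubG hS M hM) Hs :=
  OrderTargetProof.orderTarget p A hA S (actG hS) (isGalAction_actG hS)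
    (coordSystemGood Fact.out hA hW hS) (exists_finiteDimensional_fixing_good hS) (sub S M)
    (finite_sub S M hfin) (sub_stable hS M hM)

end Order

/-! ### The (PEU) layer -/

section Peu

open Fermat.Agent.S56.Flat.PointsField Fermat.Agent.S56.Flat.KummerBound
  Fermat.Agent.S56.Flat.Etale.Connected Fermat.Agent.S55.Local.Unram
  Fermat.Agent.S40.P.PeuUnram Fermat.Agent.S40.P.PeuPack

variable [Fact p.Prime] {hW : IntegralAt (W⁄Qb) A} {S : AddSubgroup (W⁄Qb).Point}

local notation "Ω" => PadicAlgCl p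

/-- **(E-MULT)(H1), Kummer form.**  `p` odd, `S` good, `M ≤ S` finite `G_ℚ`-stable killed by `p`:
there is a finite Galois extension `L / ℚ_p` with Fontaine's property, all of whose unramified
enlargements are "peu ramifiées", such that the local automorphisms fixing `L` pointwise fix `M`
pointwise. -/
theorem exists_peu_good (hp2 : p ≠ 2) (hA : A.LiesOverPrime p) (hS : IsGood hW S)
    (M : AddSubgroup (W⁄Qb).Point) (hfin : Finite M)
    (hM : ∀ σ : GQ, ∀ y ∈ M, Stab.actE W σ y ∈ M) (hle : M ≤ S)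
    (hpM : ∀ y ∈ M, p • y = 0) :
    ∃ L : IntermediateField ℚ_[p] Ω, FiniteDimensional ℚ_[p] L ∧ IsGalois ℚ_[p] L ∧
      FontaineProp p L ∧
      (∀ E₀ : IntermediateField ℚ_[p] Ω, IsUnramifiedIn ℤ_[p] E₀ → IsPeuRamifie p (L ⊔ E₀)) ∧
      ∀ τ : Ω ≃ₐ[ℚ_[p]] Ω, (∀ y ∈ L, τ y = y) →
        ∀ y ∈ M, Stab.actE W (localGaloisToGlobal p τ) y = y := by
  obtain ⟨Hs, hHs⟩ := exists_isHopfOrder_good hA hS M hfin hM
  haveI : Finite (sub S M) := finite_sub S M hfin
  haveI : FiniteDimensional ℚ_[p] (pointsField p Hs) := finiteDimensional_pointsField hHs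
  haveI : IsGalois ℚ_[p] (pointsField p Hs) := isGalois_pointsField hHs
  have hFont : FontaineProp p (pointsField p Hs) :=
    fontaineProp_pointsField (isGalAction_actSubG hS M hM) hHs fun y =>
      Subtype.ext (Subtype.ext (by
        have := hpM _ y.2
        simpa using this))
  refine ⟨pointsField p Hs, inferInstance, inferInstance, hFont,
    fun E₀ hE₀ => isPeuRamifie_sup_of_fontaineProp hp2 hFont hE₀, ?_⟩
  intro τ hτ y hy
  have h1 := act_eq_of_fixes_pointsField hHs hτ ⟨⟨y, hle hy⟩, hy⟩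
  exact congrArg (fun z : sub S M => ((z : S) : (W⁄Qb).Point)) h1

/-- **(PEU) for a subgroup of a good subgroup**: the package of `S40/P/PeuPack`. -/
theorem exists_norm_eq_zpow_of_good (hp2 : p ≠ 2) (hA : A.LiesOverPrime p) (hS : IsGood hW S)
    (M : AddSubgroup (W⁄Qb).Point) (hfin : Finite M)
    (hM : ∀ σ : GQ, ∀ y ∈ M, Stab.actE W σ y ∈ M) (hle : M ≤ S)
    (hpM : ∀ y ∈ M, p • y = 0)
    {ζ : Qb} (hζ : IsPrimitiveRoot ζ p)
    (hζM : ∀ σ : GQ, (∀ y ∈ M, Stab.actE W σ y = y) → σ ζ = ζ)
    {U : Qb} (hU : U ≠ 0)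
    (h1 : ∀ σ ∈ (padicPlace p).inertiaSubgroupIn ℚ, (σ U / U) ^ p = 1)
    (h2 : ∀ σ ∈ (padicPlace p).inertiaSubgroupIn ℚ,
      (∀ y ∈ M, Stab.actE W σ y = y) → σ U = U) :
    ∃ m : ℤ, ‖padicEmbedding p U‖ = (p : ℝ) ^ m := by
  obtain ⟨Hs, hHs⟩ := exists_isHopfOrder_good hA hS M hfin hM
  haveI : Finite (sub S M) := finite_sub S M hfin
  have hsub : ∀ σ : GQ, (∀ y : sub S M, actSubG hS M hM σ y = y) →
      ∀ y ∈ M, Stab.actE W σ y = y := fun σ hσ y hy =>
    congrArg (fun z : sub S M => ((z : S) : (W⁄Qb).Point)) (hσ ⟨⟨y, hle hy⟩, hy⟩)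
  exact exists_norm_eq_zpow_of_isHopfOrder hp2 (isGalAction_actSubG hS M hM) hHs
    (fun y => Subtype.ext (Subtype.ext (by
      have := hpM _ y.2
      simpa using this))) hζ
    (fun σ hσ => hζM σ (hsub σ hσ)) hU h1 (fun σ hσI hσ => h2 σ hσI (hsub σ hσ))

end Peu

end Fermat.Agent.S40.EM.CoordGood
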