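/-
(E-MULT), block (A)+(B)+(C) (owner: helper20; `moonshots` row 62 Amendment 1 §E, board #3118).

`Wd d₁ d₂ : y² = x (x - d₁) (x - d₂)` over `ℚ`, `A ⊂ ℚ̄` a valuation subring over an odd prime `p`
with `v(d₁) = v(p) ^ (p * n)`, `n ≥ 1`, `v(d₂) = v(d₁ - d₂) = 1` (multiplicative reduction, the node at
`(0, 0)`), e.g. the Frey curve at `p ∣ abc`.

`flat W A hW := E(ℚ̄^{I_A}) + E₁` (inertia-fixed points plus the kernel of reduction).

* (B) `xbig_mem_flat`       : points with nonsingular reduction are in `flat`;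
* (A) `torsion_mem_flat`    : `p • P = 0 → P ∈ flat` (here `p ∣ v_p(d₁)` is used);
* (C) `exists_special_lift` : every `y ∈ flat` has an inertia-fixed lift `x` modulo `E₁` ALL of whose
  `G_ℚ`-conjugates lie in `flat` (special points: `x`-coordinate in `{0, d₂} ∪ p^ℤ ∪ μ_{p'}`).
-/
import Mathlib
import Fermat.Agent.S05.NodeFinal
import Fermat.Agent.S05.Bad
import Fermat.Agent.S40.E.Stab
import Fermat.Agent.S40.E.Reduction
import Fermat.Agent.S40.E.UnrLift
import Fermat.Agent.S36.Descent.UnramLevel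
import Fermat.Agent.N4.BigDVR
import Fermat.Agent.S40.EM.CoordGood

set_option autoImplicit false
set_option linter.unusedSectionVars false
set_option linter.unusedVariables false

namespace Fermat.Agent.S40.EM.Decomp

open WeierstrassCurve WeierstrassCurve.Affine Fermat.Agent.S05 Fermat.Agent.S19.Abs
open Fermat.Agent.S05.Transfer (Wd Wd_baseChange)
open Fermat.Agent.S36.Descent.UnramLevel Fermat.Agent.S40.E

/-- **The flat part** `E(ℚ̄^{I_A}) + E₁` of the points of an integral Weierstrass curve. -/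
noncomputable def flat (W : Affine ℚ) (A : ValuationSubring Qb) (hW : IntegralAt (W⁄Qb) A) :
    AddSubgroup (W⁄Qb).Point :=
  Stab.unrPts W A ⊔ Reduction.kerRed A hW

theorem mem_flat_iff {W : Affine ℚ} {A : ValuationSubring Qb} {hW : IntegralAt (W⁄Qb) A}
    {P : (W⁄Qb).Point} :
    P ∈ flat W A hW ↔ ∃ x : (W⁄Qb).Point, (∀ σ ∈ A.inertiaSubgroupIn ℚ, σ • x = x) ∧
      Asm.InE1 A (P - x) := by
  rw [flat, AddSubgroup.mem_sup]
  constructor
  · rintro ⟨x, hx, r, hr, rfl⟩
    refine ⟨x, hx, ?_⟩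
    rw [add_sub_cancel_left]
    exact hr
  · rintro ⟨x, hx, hr⟩
    exact ⟨x, hx, P - x, hr, by abel⟩

theorem unr_mem_flat {W : Affine ℚ} {A : ValuationSubring Qb} (hW : IntegralAt (W⁄Qb) A)
    {P : (W⁄Qb).Point} (hP : ∀ σ ∈ A.inertiaSubgroupIn ℚ, σ • P = P) : P ∈ flat W A hW :=
  AddSubgroup.mem_sup_left hP

theorem ker_mem_flat {W : Affine ℚ} {A : ValuationSubring Qb} (hW : IntegralAt (W⁄Qb) A)
    {P : (W⁄Qb).Point} (hP : Asm.InE1 A P) : P ∈ flat W A hW :=
  AddSubgroup.mem_sup_right hP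

/-! ### The Legendre model `Wd d₁ d₂` at a valuation subring over `p` -/

section Wd

variable {A : ValuationSubring Qb} {p : ℕ} {d₁ d₂ : ℚ}

local notation "v" => A.valuation
local notation "W₀" => (Wd d₁ d₂ : Affine ℚ)

theorem integralAt_Wd (hd1 : v (algebraMap ℚ Qb d₁) ≤ 1) (hd2 : v (algebraMap ℚ Qb d₂) ≤ 1) :
    IntegralAt (W₀⁄Qb) A := by
  have h1 : algebraMap ℚ Qb d₁ ∈ A := (A.valuation_le_one_iff _).mp hd1
  have h2 : algebraMap ℚ Qb d₂ ∈ A := (A.valuation_le_one_iff _).mp hd2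
  refine ⟨?_, ?_, ?_, ?_, ?_⟩
  · rw [Wd_baseChange]; simp
  · rw [Wd_baseChange]
    simp only [Transfer.Wd_a₂]
    exact A.neg_mem _ (A.add_mem _ _ h1 h2)
  · rw [Wd_baseChange]; simp
  · rw [Wd_baseChange]
    simp only [Transfer.Wd_a₄]
    exact A.mul_mem _ _ h1 h2
  · rw [Wd_baseChange]; simp

/-- **(B)** points of `Wd d₁ d₂` with nonsingular reduction lie in the flat part. -/
theorem xbig_mem_flat (hp : p.Prime) (hA : A.LiesOverPrime p) (h2 : v (2 : Qb) = 1)
    (hd1 : v (algebraMap ℚ Qb d₁) ≤ 1) (hd2 : v (algebraMap ℚ Qb d₂) = 1)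
    (hd12 : v (algebraMap ℚ Qb d₁ - algebraMap ℚ Qb d₂) = 1)
    (hW : IntegralAt (W₀⁄Qb) A) {P : (W₀⁄Qb).Point} (hP : Asm.XBig A P) :
    P ∈ flat W₀ A hW := by
  rcases Asm.inE0_of_xBig A h2 hd1 hd2 hd12 hP with h1 | ⟨x, y, h, rfl, hx, hy, hns⟩
  · exact ker_mem_flat hW h1
  · rw [evalEval_polynomialX, evalEval_polynomialY] at hns
    obtain ⟨P', hP', hsub⟩ := UnrLift.exists_fixed_point_sub_inE1 hp hA hW h hx hy
      (by
        rintro ⟨c1, c2⟩
        rcases hns with h3 | h3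
        · exact h3 c1
        · exact h3 c2)
    rw [mem_flat_iff]
    exact ⟨P', hP', (Asm.inE1_iff_sameRed A _ _).mpr hsub⟩

/-! ### The special points in the node region -/

/-- The description of nonsingular points of `Wd d₁ d₂` over `ℚ̄`. -/
theorem nonsingular_iff (x y : Qb) : (W₀⁄Qb).Nonsingular x y ↔
    y ^ 2 = x * (x - algebraMap ℚ Qb d₁) * (x - algebraMap ℚ Qb d₂) ∧
      (3 * x ^ 2 - 2 * (algebraMap ℚ Qb d₁ + algebraMap ℚ Qb d₂) * x +
        algebraMap ℚ Qb d₁ * algebraMap ℚ Qb d₂ ≠ 0 ∨ 2 * y ≠ 0) := by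
  rw [Wd_baseChange, Asm.nonsingular_Wd]

/-- A point is determined by its coordinates. -/
theorem some_congr' {x y x' y' : Qb} (h : (W₀⁄Qb).Nonsingular x y)
    (h' : (W₀⁄Qb).Nonsingular x' y') (hx : x = x') (hy : y = y') :
    Point.some x y h = Point.some x' y' h' := by
  subst hx hy; rfl

/-- The negative of a point of `Wd d₁ d₂`. -/
theorem neg_some' {x y : Qb} (h : (W₀⁄Qb).Nonsingular x y) (h' : (W₀⁄Qb).Nonsingular x (-y)) :
    -Point.some x y h = Point.some x (-y) h' := by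
  rw [Point.neg_some]
  refine some_congr' _ _ rfl ?_
  rw [Affine.negY]
  simp [Wd, WeierstrassCurve.baseChange, WeierstrassCurve.map]

/-- **The special point with `x`-coordinate `p ^ i` in the node region**: it is rational over the
fixed field of the inertia group, and each of its `G_ℚ`-conjugates is `± ` itself. -/
theorem exists_node_point (hp : p.Prime) (hp2 : p ≠ 2) (hA : A.LiesOverPrime p)
    (hd2 : v (algebraMap ℚ Qb d₂) = 1) (i : ℕ)
    (hlo : v (algebraMap ℚ Qb d₁) < v ((p : Qb) ^ i)) (hhi : v ((p : Qb) ^ i) < 1) :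
    ∃ (yR : Qb) (hR : (W₀⁄Qb).Nonsingular ((p : Qb) ^ i) yR),
      (∀ σ ∈ A.inertiaSubgroupIn ℚ, σ • Point.some _ _ hR = Point.some _ _ hR) ∧
      ∀ τ : GQ, τ • Point.some _ _ hR = Point.some _ _ hR ∨
        τ • Point.some _ _ hR = -Point.some _ _ hR := by
  classical
  set D1 : Qb := algebraMap ℚ Qb d₁ with hD1
  set D2 : Qb := algebraMap ℚ Qb d₂ with hD2
  have hp0 : (p : Qb) ≠ 0 := Nat.cast_ne_zero.mpr hp.ne_zero
  set xR : Qb := (p : Qb) ^ i with hxR
  have hxRne : xR ≠ 0 := pow_ne_zero _ hp0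
  have h2 : v (2 : Qb) = 1 := Arith.valuation_two_eq_one A hp hp2 hA
  set τ₀ : ℚ := ((p : ℚ) ^ i - d₁) * ((p : ℚ) ^ i - d₂) / (p : ℚ) ^ i with hτ₀
  have hxRF : algebraMap ℚ Qb ((p : ℚ) ^ i) = xR := by
    rw [map_pow, map_natCast]
  have hτK : algebraMap ℚ Qb τ₀ = (xR - D1) * (xR - D2) / xR := by
    rw [hτ₀, map_div₀, map_mul, map_sub, map_sub, hxRF]
  have hvτ : v (algebraMap ℚ Qb τ₀) = 1 := by
    rw [hτK, map_div₀, map_mul]
    have e1 : v (xR - D1) = v xR := by
      have : xR - D1 = xR + (-D1) := by ring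
      rw [this, (v).map_add_eq_of_lt_left (by rw [Valuation.map_neg]; exact hlo)]
    have e2 : v (xR - D2) = 1 := by
      have : xR - D2 = -D2 + xR := by ring
      rw [this, (v).map_add_eq_of_lt_left
        (by rw [Valuation.map_neg, hd2]; exact hhi), Valuation.map_neg, hd2]
    rw [e1, e2, mul_one]
    exact div_self ((Valuation.ne_zero_iff v).mpr hxRne)
  obtain ⟨t, ht⟩ := IsAlgClosed.exists_pow_nat_eq (algebraMap ℚ Qb τ₀) (n := 2) (by norm_num)
  have hvt : v t = 1 := by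
    have : v t ^ 2 = 1 := by rw [← map_pow, ht, hvτ]
    exact (pow_eq_one_iff_left two_ne_zero).mp this
  have hR : (W₀⁄Qb).Nonsingular xR (xR * t) := by
    rw [nonsingular_iff]
    refine ⟨?_, Or.inr ?_⟩
    · rw [mul_pow, ht, hτK, ← hD1, ← hD2]
      field_simp
    · have : v (2 * (xR * t)) ≠ 0 := by
        rw [map_mul, map_mul, h2, hvt, one_mul, mul_one]
        exact (Valuation.ne_zero_iff v).mpr hxRne
      exact (Valuation.ne_zero_iff v).mp this
  have hσxR : ∀ τ : GQ, τ xR = xR := fun τ => by rw [← hxRF, AlgEquiv.commutes]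
  have hσt : ∀ τ : GQ, τ t = t ∨ τ t = -t := fun τ => by
    have hsq' : τ t ^ 2 = t ^ 2 := by rw [← map_pow, ht, AlgEquiv.commutes]
    exact sq_eq_sq_iff_eq_or_eq_neg.mp hsq'
  -- `t` is fixed by the inertia group
  have htK : t ∈ Kmax A := by
    refine mem_Kmax_of_pow_eq hA two_ne_zero ?_ ht ((Kmax A).algebraMap_mem τ₀)
      ((A.valuation_le_one_iff _).mp hvτ.le) ?_
    · exact (Nat.coprime_primes hp Nat.prime_two).mpr hp2
    · rw [A.mem_nonunits_iff, hvτ]
      exact lt_irrefl 1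
  refine ⟨xR * t, hR, ?_, ?_⟩
  · intro σ hσ
    rw [Inertia.smul_some]
    refine some_congr' _ _ (hσxR σ) ?_
    rw [map_mul, hσxR, apply_eq_of_mem_Kmax htK hσ]
  · intro τ
    rw [Inertia.smul_some]
    rcases hσt τ with h' | h'
    · left
      refine some_congr' _ _ (hσxR τ) ?_
      rw [map_mul, hσxR, h']
    · right
      have hR' : (W₀⁄Qb).Nonsingular xR (-(xR * t)) := by
        rw [nonsingular_iff] at hR ⊢
        refine ⟨by rw [neg_sq]; exact hR.1, ?_⟩
        rcases hR.2 with h3 | h3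
        · exact Or.inl h3
        · exact Or.inr (by simpa using h3)
      rw [neg_some' hR hR']
      refine some_congr' _ _ (hσxR τ) ?_
      rw [map_mul, hσxR, h']
      ring

/-- The `2`-torsion point `(0, 0)` (the node) is rational. -/
theorem nonsingular_zero (hD1 : algebraMap ℚ Qb d₁ ≠ 0) (hD2 : algebraMap ℚ Qb d₂ ≠ 0) :
    (W₀⁄Qb).Nonsingular 0 0 := by
  rw [nonsingular_iff]
  refine ⟨by ring, Or.inl ?_⟩
  simpa using mul_ne_zero hD1 hD2

theorem smul_some_zero (h00 : (W₀⁄Qb).Nonsingular 0 0) (τ : GQ) :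
    τ • Point.some 0 0 h00 = Point.some 0 0 h00 := by
  rw [Inertia.smul_some]
  exact some_congr' _ _ (map_zero τ) (map_zero τ)

/-- the standing hypotheses give `v(d₁ - d₂) = 1` -/
theorem val_sub_eq_one (hd1lt : v (algebraMap ℚ Qb d₁) < 1) (hd2 : v (algebraMap ℚ Qb d₂) = 1) :
    v (algebraMap ℚ Qb d₁ - algebraMap ℚ Qb d₂) = 1 := by
  rw [(v).map_sub_swap]
  have : algebraMap ℚ Qb d₂ - algebraMap ℚ Qb d₁ = algebraMap ℚ Qb d₂ + (-algebraMap ℚ Qb d₁) := by
    ring
  rw [this, (v).map_add_eq_of_lt_left (by rw [Valuation.map_neg, hd2]; exact hd1lt), hd2]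

/-- **(A)** the `p`-torsion of `Wd d₁ d₂` lies in the flat part when `v(d₁) = v(p) ^ (p n)`. -/
theorem torsion_mem_flat (hp : p.Prime) (hp2 : p ≠ 2) (hA : A.LiesOverPrime p) {n : ℕ}
    (hd1 : v (algebraMap ℚ Qb d₁) = v (p : Qb) ^ (p * n))
    (hd1lt : v (algebraMap ℚ Qb d₁) < 1) (hd2 : v (algebraMap ℚ Qb d₂) = 1)
    (hW : IntegralAt (W₀⁄Qb) A) (P : (W₀⁄Qb).Point) (hP : p • P = 0) : P ∈ flat W₀ A hW := by
  classical
  set D1 : Qb := algebraMap ℚ Qb d₁ with hD1
  set D2 : Qb := algebraMap ℚ Qb d₂ with hD2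
  have hp0 : (p : Qb) ≠ 0 := Nat.cast_ne_zero.mpr hp.ne_zero
  have h2 : v (2 : Qb) = 1 := Arith.valuation_two_eq_one A hp hp2 hA
  have hd12 : v (D1 - D2) = 1 := val_sub_eq_one hd1lt hd2
  have hD1ne : D1 ≠ 0 := by
    intro h0
    rw [h0, map_zero] at hd1
    exact pow_ne_zero _ ((Valuation.ne_zero_iff v).mpr hp0) hd1.symm
  have hD2ne : D2 ≠ 0 := by
    intro h0
    rw [h0, map_zero] at hd2
    exact zero_ne_one hd2
  have hN : Asm.NodeFacts (K := Qb) A d₁ d₂ p :=
    NodeFinal.nodeStatement A p d₁ d₂ hp hp2 h2 hd1lt hD1ne hd2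
  have hB : ∀ {Q : (W₀⁄Qb).Point}, Asm.XBig A Q → Q ∈ flat W₀ A hW :=
    fun hQ => xbig_mem_flat hp hA h2 hd1lt.le hd2 hd12 hW hQ
  have h00 : (W₀⁄Qb).Nonsingular 0 0 := nonsingular_zero hD1ne hD2ne
  have hT : Point.some 0 0 h00 ∈ flat W₀ A hW :=
    unr_mem_flat hW fun σ _ => smul_some_zero h00 σ
  cases P with
  | zero => exact (flat W₀ A hW).zero_mem
  | some x y h =>
    rcases le_or_gt 1 (v x) with hx1 | hx1
    · exact hB (Or.inr ⟨x, y, h, rfl, hx1⟩)
    rcases le_or_gt (v x) (v D1) with hxM | hxM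
    · by_cases hx0 : x = 0
      · have hy0 : y = 0 := by
          have := ((nonsingular_iff x y).mp h).1
          rw [hx0] at this
          simpa using this
        have : Point.some x y h = Point.some 0 0 h00 := some_congr' _ _ hx0 hy0
        rw [this]
        exact hT
      · have h1 := hB (hN.transl h00 x y h hxM hx0)
        have h3 := (flat W₀ A hW).sub_mem h1 hT
        rwa [add_sub_cancel_right] at h3
    · obtain ⟨j, hj⟩ := hN.tors x y h hxM hx1 hP
      have hc0 : 0 < v (p : Qb) := by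
        rw [Valuation.pos_iff]; exact hp0
      have hc1 : v (p : Qb) < 1 := (Arith.liesOverPrime_iff A p).mp hA
      obtain ⟨i, hi⟩ := Asm.exists_nat_pow hc0 hc1 hp.ne_zero hd1 hx1 hj
      have hvxR : v ((p : Qb) ^ i) = v x := by rw [map_pow, hi]
      obtain ⟨yR, hR, hfix, -⟩ := exists_node_point (d₁ := d₁) hp hp2 hA hd2 i
        (by rw [hvxR]; exact hxM) (by rw [hvxR]; exact hx1)
      have hRf : Point.some _ _ hR ∈ flat W₀ A hW := unr_mem_flat hW hfix
      by_cases hxx : x = (p : Qb) ^ i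
      · have hy : y = yR ∨ y = -yR := by
          have e1 := ((nonsingular_iff x y).mp h).1
          have e2 := ((nonsingular_iff _ yR).mp hR).1
          rw [hxx, ← e2] at e1
          exact sq_eq_sq_iff_eq_or_eq_neg.mp e1
        rcases hy with hy | hy
        · have : Point.some x y h = Point.some _ _ hR := some_congr' _ _ hxx hy
          rw [this]; exact hRf
        · have hR' : (W₀⁄Qb).Nonsingular ((p : Qb) ^ i) (-yR) := by
            have := h
            rw [hxx, hy] at this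
            exact this
          have : Point.some x y h = -Point.some _ _ hR := by
            rw [neg_some' hR hR']
            exact some_congr' _ _ hxx hy
          rw [this]; exact (flat W₀ A hW).neg_mem hRf
      · rcases hN.pair x y h _ yR hR hxM hx1 hvxR hxx with hE | hE
        · have h3 := (flat W₀ A hW).sub_mem (hB hE) hRf
          rwa [add_sub_cancel_right] at h3
        · have h3 := (flat W₀ A hW).add_mem (hB hE) hRf
          rwa [sub_add_cancel] at h3

/-! ### Special lifts -/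

/-- a root of unity is a unit of every valuation subring -/
theorem val_eq_one_of_pow_eq_one {ξ : Qb} {m : ℕ} (hm : m ≠ 0) (hξ : ξ ^ m = 1) : v ξ = 1 := by
  have : v ξ ^ m = 1 := by rw [← map_pow, hξ, map_one]
  exact (pow_eq_one_iff_left hm).mp this

/-- good roots of unity are fixed by the inertia group -/
theorem goodRoot_mem_Kmax (hp : p.Prime) (hA : A.LiesOverPrime p) {ξ : Qb}
    (hξ : ξ ∈ N4.BigDVR.goodRoots A) : ξ ∈ Kmax A := by
  obtain ⟨m, hm, hξm⟩ := hξ
  have hm0 : m ≠ 0 := by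
    rintro rfl
    apply hm
    rw [Nat.cast_zero, A.mem_nonunits_iff, map_zero]
    exact zero_lt_one
  have hcop : Nat.Coprime p m := by
    rw [Nat.Prime.coprime_iff_not_dvd hp]
    rintro ⟨k, rfl⟩
    apply hm
    rw [Nat.cast_mul, A.mem_nonunits_iff, map_mul]
    have h1 : v (p : Qb) < 1 := (Arith.liesOverPrime_iff A p).mp hA
    have h2 : v (k : Qb) ≤ 1 := (A.valuation_le_one_iff _).mpr (natCast_mem A k)
    exact mul_lt_one_of_lt_of_le h1 h2
  refine mem_Kmax_of_pow_eq hA hm0 hcop hξm (Kmax A).one_mem A.one_mem ?_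
  rw [A.mem_nonunits_iff, map_one]
  exact lt_irrefl 1

/-- **(C-ii)** an inertia-fixed point with nonsingular reduction has a SPECIAL lift modulo the
kernel of reduction: inertia-fixed, and all its `G_ℚ`-conjugates lie in the flat part. -/
theorem exists_lift_of_xbig (hp : p.Prime) (hp2 : p ≠ 2) (hA : A.LiesOverPrime p)
    (hd1lt : v (algebraMap ℚ Qb d₁) < 1) (hd2 : v (algebraMap ℚ Qb d₂) = 1)
    (hW : IntegralAt (W₀⁄Qb) A) {z : (W₀⁄Qb).Point} (hz : Asm.XBig A z) :
    ∃ x : (W₀⁄Qb).Point, (∀ σ ∈ A.inertiaSubgroupIn ℚ, σ • x = x) ∧ Asm.InE1 A (z - x) ∧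
      ∀ τ : GQ, τ • x ∈ flat W₀ A hW := by
  classical
  set D1 : Qb := algebraMap ℚ Qb d₁ with hD1
  set D2 : Qb := algebraMap ℚ Qb d₂ with hD2
  have h2 : v (2 : Qb) = 1 := Arith.valuation_two_eq_one A hp hp2 hA
  have hd12 : v (D1 - D2) = 1 := val_sub_eq_one hd1lt hd2
  have hD2ne : D2 ≠ 0 := by
    intro h0
    rw [h0, map_zero] at hd2
    exact zero_ne_one hd2
  have hD1A : D1 ∈ A := (A.valuation_le_one_iff _).mp hd1lt.le
  have hD2A : D2 ∈ A := (A.valuation_le_one_iff _).mp hd2.le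
  have hB : ∀ {Q : (W₀⁄Qb).Point}, Asm.XBig A Q → Q ∈ flat W₀ A hW :=
    fun hQ => xbig_mem_flat hp hA h2 hd1lt.le hd2 hd12 hW hQ
  rcases hz with rfl | ⟨x, y, h, rfl, hx1⟩
  · exact ⟨0, fun _ _ => rfl, by rw [sub_zero]; exact Asm.inE1_zero A,
      fun τ => (flat W₀ A hW).zero_mem⟩
  by_cases hx : x ∈ A
  swap
  · exact ⟨0, fun _ _ => rfl, by rw [sub_zero]; exact Or.inr ⟨x, y, h, rfl, hx⟩,
      fun τ => (flat W₀ A hW).zero_mem⟩
  have hvx : v x = 1 := le_antisymm ((A.valuation_le_one_iff x).mpr hx) hx1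
  have hy : y ∈ A := UnrLift.y_mem_of_equation A hW h.1 hx
  have heq := ((nonsingular_iff x y).mp h).1
  -- nonsingular reduction, in the shape of `SameRed.inE1_sub`
  have hns : ¬ ((W₀⁄Qb).a₁ * y - (3 * x ^ 2 + 2 * (W₀⁄Qb).a₂ * x + (W₀⁄Qb).a₄) ∈ A.nonunits ∧
      2 * y + (W₀⁄Qb).a₁ * x + (W₀⁄Qb).a₃ ∈ A.nonunits) := by
    have hN : Asm.NonsingRed A (W₀⁄Qb) x y := by
      have heq' := h.1
      rw [Wd_baseChange] at heq' ⊢
      exact Asm.nonsingRed_Wd A h2 hd1lt.le hd2 hd12 hx heq' (Or.inr hvx)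
    have h3 := hN.2.2
    rw [evalEval_polynomialX, evalEval_polynomialY] at h3
    rintro ⟨c1, c2⟩
    rcases h3 with h3 | h3
    · exact h3 c1
    · exact h3 c2
  by_cases hxD : x - D2 ∈ A.nonunits
  · -- the residue point is the `2`-torsion point `(d₂, 0)`
    have hT2 : (W₀⁄Qb).Nonsingular D2 0 := by
      rw [nonsingular_iff]
      refine ⟨by ring, Or.inl ?_⟩
      have : 3 * D2 ^ 2 - 2 * (D1 + D2) * D2 + D1 * D2 = -(D2 * (D1 - D2)) := by ring
      rw [this, neg_ne_zero]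
      refine mul_ne_zero hD2ne ?_
      intro h0
      rw [h0, map_zero] at hd12
      exact zero_ne_one hd12
    have hyn : y ∈ A.nonunits := by
      rw [A.mem_nonunits_iff]
      by_contra hcon
      have hvy : v y = 1 := le_antisymm ((A.valuation_le_one_iff y).mpr hy) (not_lt.mp hcon)
      have h4 : v (y ^ 2) = 1 := by rw [map_pow, hvy, one_pow]
      rw [heq, map_mul, map_mul] at h4
      have h5 : v (x - D2) < 1 := (A.mem_nonunits_iff).mp hxD
      have h6 : v (x - D1) ≤ 1 := (A.valuation_le_one_iff _).mpr (sub_mem hx hD1A)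
      have h7 : v x * v (x - D1) * v (x - D2) < 1 := by
        rw [hvx, one_mul, mul_comm]
        exact mul_lt_one_of_lt_of_le h5 h6
      rw [h4] at h7
      exact lt_irrefl _ h7
    refine ⟨Point.some D2 0 hT2, ?_, ?_, ?_⟩
    · intro σ _
      rw [Inertia.smul_some]
      exact some_congr' _ _ (AlgEquiv.commutes σ d₂) (map_zero σ)
    · rw [Asm.inE1_iff_sameRed]
      exact SameRed.inE1_sub (W₀⁄Qb) A hW.a₁ hW.a₂ hW.a₃ h hT2 hx hD2A A.zero_mem hxD
        (by rwa [sub_zero]) hns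
    · intro τ
      refine unr_mem_flat hW fun σ _ => ?_
      rw [Inertia.smul_some, Inertia.smul_some]
      refine some_congr' _ _ ?_ ?_
      · rw [AlgEquiv.commutes τ d₂, AlgEquiv.commutes σ d₂]
      · rw [map_zero, map_zero]
  · -- the residue point has `x̄ ∉ {0, d̄₂}`: lift `x` to a root of unity
    have hxu : x ∉ A.nonunits := by
      rw [A.mem_nonunits_iff, hvx]; exact lt_irrefl 1
    haveI : Algebra.IsAlgebraic ℚ Qb := AlgebraicClosure.isAlgebraic ℚ
    obtain ⟨ξ, hξg, hxξ⟩ := N4.BigDVR.exists_goodRoot_sub_mem_nonunits A hp hA hx hxu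
    obtain ⟨m, hm, hξm⟩ := hξg
    have hm0 : m ≠ 0 := by
      rintro rfl
      apply hm
      rw [Nat.cast_zero, A.mem_nonunits_iff, map_zero]
      exact zero_lt_one
    have hvξ : v ξ = 1 := val_eq_one_of_pow_eq_one hm0 hξm
    have hξA : ξ ∈ A := (A.valuation_le_one_iff _).mp hvξ.le
    have hξK : ξ ∈ Kmax A := goodRoot_mem_Kmax hp hA ⟨m, hm, hξm⟩
    -- the value of the cubic at `ξ`
    set Rξ : Qb := ξ * (ξ - D1) * (ξ - D2) with hRξ
    have hv1 : v (ξ - D1) = 1 := by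
      have : ξ - D1 = ξ + (-D1) := by ring
      rw [this, (v).map_add_eq_of_lt_left (by rw [Valuation.map_neg, hvξ]; exact hd1lt), hvξ]
    have hv2 : v (ξ - D2) = 1 := by
      have hle : v (ξ - D2) ≤ 1 := (A.valuation_le_one_iff _).mpr (sub_mem hξA hD2A)
      refine le_antisymm hle (not_lt.mp fun hlt => hxD ?_)
      have : x - D2 = (x - ξ) + (ξ - D2) := by ring
      rw [this]
      exact A.nonunits.add_mem hxξ ((A.mem_nonunits_iff).mpr hlt)
    have hvR : v Rξ = 1 := by rw [hRξ, map_mul, map_mul, hvξ, hv1, hv2, one_mul, one_mul]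
    have hRA : Rξ ∈ A := (A.valuation_le_one_iff _).mp hvR.le
    have hRu : Rξ ∉ A.nonunits := by
      rw [A.mem_nonunits_iff, hvR]; exact lt_irrefl 1
    have hRK : Rξ ∈ Kmax A :=
      (Kmax A).mul_mem ((Kmax A).mul_mem hξK ((Kmax A).sub_mem hξK ((Kmax A).algebraMap_mem d₁)))
        ((Kmax A).sub_mem hξK ((Kmax A).algebraMap_mem d₂))
    obtain ⟨η₀, hη₀⟩ := IsAlgClosed.exists_pow_nat_eq Rξ (n := 2) (by norm_num)
    -- choose the sign of the square root
    have hprod : (y - η₀) * (y + η₀) ∈ A.nonunits := by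
      have e : (y - η₀) * (y + η₀) =
          (x - ξ) * (x ^ 2 + x * ξ + ξ ^ 2 - (D1 + D2) * (x + ξ) + D1 * D2) := by
        have : (y - η₀) * (y + η₀) = y ^ 2 - η₀ ^ 2 := by ring
        rw [this, heq, hη₀, hRξ]
        ring
      rw [e]
      refine SameRed.mul_mem_nonunits_of_mem' A ?_ hxξ
      exact add_mem (sub_mem (add_mem (add_mem (pow_mem hx 2)
        (mul_mem hx hξA)) (pow_mem hξA 2))
        (mul_mem (add_mem hD1A hD2A) (add_mem hx hξA))) (mul_mem hD1A hD2A)
    have hvη₀ : v η₀ = 1 := by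
      have : v η₀ ^ 2 = 1 := by rw [← map_pow, hη₀, hvR]
      exact (pow_eq_one_iff_left two_ne_zero).mp this
    have hη₀A : η₀ ∈ A := (A.valuation_le_one_iff _).mp hvη₀.le
    obtain ⟨η, hη2, hηy⟩ : ∃ η : Qb, η ^ 2 = Rξ ∧ y - η ∈ A.nonunits := by
      by_cases h1 : y - η₀ ∈ A.nonunits
      · exact ⟨η₀, hη₀, h1⟩
      · refine ⟨-η₀, by rw [neg_sq]; exact hη₀, ?_⟩
        rw [sub_neg_eq_add]
        by_contra h2'
        have hu1 : v (y - η₀) = 1 :=
          le_antisymm ((A.valuation_le_one_iff _).mpr (sub_mem hy hη₀A))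
            (not_lt.mp fun hlt => h1 ((A.mem_nonunits_iff).mpr hlt))
        have hu2 : v (y + η₀) = 1 :=
          le_antisymm ((A.valuation_le_one_iff _).mpr (add_mem hy hη₀A))
            (not_lt.mp fun hlt => h2' ((A.mem_nonunits_iff).mpr hlt))
        rw [A.mem_nonunits_iff, map_mul, hu1, hu2, one_mul] at hprod
        exact lt_irrefl _ hprod
    have hvη : v η = 1 := by
      have : v η ^ 2 = 1 := by rw [← map_pow, hη2, hvR]
      exact (pow_eq_one_iff_left two_ne_zero).mp this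
    have hηA : η ∈ A := (A.valuation_le_one_iff _).mp hvη.le
    have hηK : η ∈ Kmax A :=
      mem_Kmax_of_pow_eq hA two_ne_zero ((Nat.coprime_primes hp Nat.prime_two).mpr hp2) hη2 hRK
        hRA hRu
    have hS : (W₀⁄Qb).Nonsingular ξ η := by
      rw [nonsingular_iff]
      refine ⟨by rw [hη2], Or.inr ?_⟩
      have : v (2 * η) ≠ 0 := by
        rw [map_mul, h2, hvη, one_mul]; exact one_ne_zero
      exact (Valuation.ne_zero_iff v).mp this
    refine ⟨Point.some ξ η hS, ?_, ?_, ?_⟩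
    · intro σ hσ
      rw [Inertia.smul_some]
      exact some_congr' _ _ (apply_eq_of_mem_Kmax hξK hσ) (apply_eq_of_mem_Kmax hηK hσ)
    · rw [Asm.inE1_iff_sameRed]
      exact SameRed.inE1_sub (W₀⁄Qb) A hW.a₁ hW.a₂ hW.a₃ h hS hx hξA hηA hxξ hηy hns
    · intro τ
      rw [Inertia.smul_some]
      refine hB (Or.inr ⟨τ ξ, τ η, _, rfl, ?_⟩)
      have : (τ ξ) ^ m = 1 := by rw [← map_pow, hξm, map_one]
      exact (val_eq_one_of_pow_eq_one hm0 this).ge

/-- **(C-i)** every inertia-fixed point can be moved into the part with nonsingular reduction by a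
special point `s ∈ {0, ±(0,0), ±(pⁱ, ·)}` (inertia-fixed, all conjugates inertia-fixed). -/
theorem exists_shift_xbig (hp : p.Prime) (hp2 : p ≠ 2) (hA : A.LiesOverPrime p)
    (hd1lt : v (algebraMap ℚ Qb d₁) < 1) (hD1ne : algebraMap ℚ Qb d₁ ≠ 0)
    (hd2 : v (algebraMap ℚ Qb d₂) = 1)
    (hW : IntegralAt (W₀⁄Qb) A) {x₀ : (W₀⁄Qb).Point}
    (hx₀ : ∀ σ ∈ A.inertiaSubgroupIn ℚ, σ • x₀ = x₀) :
    ∃ s : (W₀⁄Qb).Point, (∀ σ ∈ A.inertiaSubgroupIn ℚ, σ • s = s) ∧
      (∀ τ : GQ, τ • s ∈ flat W₀ A hW) ∧ Asm.XBig A (x₀ + s) := by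
  classical
  set D1 : Qb := algebraMap ℚ Qb d₁ with hD1
  set D2 : Qb := algebraMap ℚ Qb d₂ with hD2
  have hp0 : (p : Qb) ≠ 0 := Nat.cast_ne_zero.mpr hp.ne_zero
  have h2 : v (2 : Qb) = 1 := Arith.valuation_two_eq_one A hp hp2 hA
  have hD2ne : D2 ≠ 0 := by
    intro h0
    rw [h0, map_zero] at hd2
    exact zero_ne_one hd2
  have hN : Asm.NodeFacts (K := Qb) A d₁ d₂ p :=
    NodeFinal.nodeStatement A p d₁ d₂ hp hp2 h2 hd1lt hD1ne hd2
  have h00 : (W₀⁄Qb).Nonsingular 0 0 := nonsingular_zero hD1ne hD2ne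
  have hTfix : ∀ τ : GQ, τ • Point.some 0 0 h00 = Point.some 0 0 h00 := smul_some_zero h00
  cases x₀ with
  | zero =>
    exact ⟨0, fun _ _ => rfl, fun τ => (flat W₀ A hW).zero_mem, by rw [add_zero]; exact Or.inl rfl⟩
  | some x y h =>
    rcases le_or_gt 1 (v x) with hx1 | hx1
    · exact ⟨0, fun _ _ => rfl, fun τ => (flat W₀ A hW).zero_mem, by
        rw [add_zero]; exact Or.inr ⟨x, y, h, rfl, hx1⟩⟩
    rcases le_or_gt (v x) (v D1) with hxM | hxM
    · by_cases hx0 : x = 0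
      · -- `x₀ = (0, 0)`
        have hy0 : y = 0 := by
          have := ((nonsingular_iff x y).mp h).1
          rw [hx0] at this
          simpa using this
        have e : Point.some x y h = Point.some 0 0 h00 := some_congr' _ _ hx0 hy0
        refine ⟨-Point.some 0 0 h00, ?_, ?_, ?_⟩
        · intro σ _
          rw [Inertia.smul_neg_point, hTfix]
        · intro τ
          rw [Inertia.smul_neg_point, hTfix]
          refine (flat W₀ A hW).neg_mem (unr_mem_flat hW fun σ _ => hTfix σ)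
        · rw [e, add_neg_cancel]
          exact Or.inl rfl
      · exact ⟨Point.some 0 0 h00, fun σ _ => hTfix σ,
          fun τ => by rw [hTfix]; exact unr_mem_flat hW fun σ _ => hTfix σ,
          hN.transl h00 x y h hxM hx0⟩
    · -- the node region: `v x = v p ^ i`
      have hxK : x ∈ Kmax A := by
        rw [mem_Kmax_iff]
        intro σ hσ
        have h1 := hx₀ σ hσ
        rw [Inertia.smul_some] at h1
        simp only [Point.some.injEq] at h1
        exact h1.1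
      have hx0 : x ≠ 0 := by
        rintro rfl
        rw [map_zero] at hxM
        exact not_lt_zero' hxM
      obtain ⟨k, u, hu, hui, -, hxu⟩ := exists_eq_zpow_mul_unit hp hA hxK hx0
      have hvu : v u = 1 := by
        have h1 : v u ≤ 1 := (A.valuation_le_one_iff _).mpr hu
        have h3 : v u⁻¹ ≤ 1 := (A.valuation_le_one_iff _).mpr hui
        rw [map_inv₀] at h3
        have hu0 : v u ≠ 0 := by
          intro h0
          rw [h0, inv_zero] at h3
          rw [hxu, map_mul, h0, mul_zero] at hxM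
          exact not_lt_zero' hxM
        exact le_antisymm h1 ((inv_le_one₀ (zero_lt_iff.mpr hu0)).mp h3)
      have hc0 : 0 < v (p : Qb) := by
        rw [Valuation.pos_iff]; exact hp0
      have hc1 : v (p : Qb) < 1 := (Arith.liesOverPrime_iff A p).mp hA
      have hvx : v x = v (p : Qb) ^ k := by
        rw [hxu, map_mul, hvu, mul_one, map_zpow₀]
      have hkpos : 0 < k := by
        rw [hvx] at hx1
        exact (zpow_lt_one_iff_right_of_lt_one₀ hc0 hc1).mp hx1
      obtain ⟨i, rfl⟩ : ∃ i : ℕ, k = (i : ℤ) := ⟨k.toNat, (Int.toNat_of_nonneg hkpos.le).symm⟩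
      rw [zpow_natCast] at hvx
      have hvxR : v ((p : Qb) ^ i) = v x := by rw [map_pow, hvx]
      obtain ⟨yR, hR, hfix, hconj⟩ := exists_node_point (d₁ := d₁) hp hp2 hA hd2 i
        (by rw [hvxR]; exact hxM) (by rw [hvxR]; exact hx1)
      have hRf : Point.some _ _ hR ∈ flat W₀ A hW := unr_mem_flat hW hfix
      have hconjR : ∀ τ : GQ, τ • Point.some _ _ hR ∈ flat W₀ A hW := by
        intro τ
        rcases hconj τ with h' | h'
        · rw [h']; exact hRf
        · rw [h']; exact (flat W₀ A hW).neg_mem hRf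
      have hconjN : ∀ τ : GQ, τ • (-Point.some _ _ hR) ∈ flat W₀ A hW := by
        intro τ
        rw [Inertia.smul_neg_point]
        exact (flat W₀ A hW).neg_mem (hconjR τ)
      have hfixN : ∀ σ ∈ A.inertiaSubgroupIn ℚ, σ • (-Point.some _ _ hR) = -Point.some _ _ hR := by
        intro σ hσ
        rw [Inertia.smul_neg_point, hfix σ hσ]
      by_cases hxx : x = (p : Qb) ^ i
      · have hy : y = yR ∨ y = -yR := by
          have e1 := ((nonsingular_iff x y).mp h).1
          have e2 := ((nonsingular_iff _ yR).mp hR).1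
          rw [hxx, ← e2] at e1
          exact sq_eq_sq_iff_eq_or_eq_neg.mp e1
        rcases hy with hy | hy
        · have e : Point.some x y h = Point.some _ _ hR := some_congr' _ _ hxx hy
          refine ⟨-Point.some _ _ hR, hfixN, hconjN, ?_⟩
          rw [e, add_neg_cancel]
          exact Or.inl rfl
        · have hR' : (W₀⁄Qb).Nonsingular ((p : Qb) ^ i) (-yR) := by
            have := h
            rw [hxx, hy] at this
            exact this
          have e : Point.some x y h = -Point.some _ _ hR := by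
            rw [neg_some' hR hR']
            exact some_congr' _ _ hxx hy
          refine ⟨Point.some _ _ hR, hfix, hconjR, ?_⟩
          rw [e, neg_add_cancel]
          exact Or.inl rfl
      · rcases hN.pair x y h _ yR hR hxM hx1 hvxR hxx with hE | hE
        · exact ⟨Point.some _ _ hR, hfix, hconjR, hE⟩
        · refine ⟨-Point.some _ _ hR, hfixN, hconjN, ?_⟩
          rw [← sub_eq_add_neg]
          exact hE

/-- **(C)** every point of the flat part has a SPECIAL lift modulo the kernel of reduction: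
inertia-fixed, and all its `G_ℚ`-conjugates lie in the flat part. -/
theorem exists_special_lift (hp : p.Prime) (hp2 : p ≠ 2) (hA : A.LiesOverPrime p)
    (hd1lt : v (algebraMap ℚ Qb d₁) < 1) (hD1ne : algebraMap ℚ Qb d₁ ≠ 0)
    (hd2 : v (algebraMap ℚ Qb d₂) = 1)
    (hW : IntegralAt (W₀⁄Qb) A) {y : (W₀⁄Qb).Point} (hy : y ∈ flat W₀ A hW) :
    ∃ x : (W₀⁄Qb).Point, (∀ σ ∈ A.inertiaSubgroupIn ℚ, σ • x = x) ∧ Asm.InE1 A (y - x) ∧
      ∀ τ : GQ, τ • x ∈ flat W₀ A hW := by
  classical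
  obtain ⟨x₀, hx₀, hr⟩ := mem_flat_iff.mp hy
  obtain ⟨s, hs, hsc, hbig⟩ := exists_shift_xbig hp hp2 hA hd1lt hD1ne hd2 hW hx₀
  obtain ⟨x₂, hx₂, hr₂, hx₂c⟩ := exists_lift_of_xbig hp hp2 hA hd1lt hd2 hW hbig
  refine ⟨x₂ - s, ?_, ?_, ?_⟩
  · intro σ hσ
    rw [Inertia.smul_sub_point, hx₂ σ hσ, hs σ hσ]
  · have h1 : y - (x₂ - s) = (y - x₀) + (x₀ + s - x₂) := by abel
    rw [h1]
    exact (Reduction.kerRed A hW).add_mem hr hr₂
  · intro τ
    rw [Inertia.smul_sub_point]
    exact (flat W₀ A hW).sub_mem (hx₂c τ) (hsc τ)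

/-! ### The interface with `EM/CoordGood` (helper17) -/

theorem flat_eq_localFlat (W : Affine ℚ) (A : ValuationSubring Qb) (hW : IntegralAt (W⁄Qb) A) :
    flat W A hW = CoordGood.localFlat W A hW := by
  ext P
  rw [mem_flat_iff]
  constructor
  · rintro ⟨x, hx, hr⟩
    exact ⟨x, hx, hr⟩
  · rintro ⟨x, hx, hr⟩
    exact ⟨x, hx, hr⟩

/-- **the core of `Wd d₁ d₂` at `A ∣ p` is a good subgroup** (multiplicative reduction). -/
theorem isGood_core_Wd (hp : p.Prime) (hp2 : p ≠ 2) (hA : A.LiesOverPrime p)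
    (hd1lt : v (algebraMap ℚ Qb d₁) < 1) (hD1ne : algebraMap ℚ Qb d₁ ≠ 0)
    (hd2 : v (algebraMap ℚ Qb d₂) = 1) (hW : IntegralAt (W₀⁄Qb) A) :
    CoordGood.IsGood hW (CoordGood.core W₀ A hW) := by
  refine CoordGood.isGood_core hW fun y hy => ?_
  rw [← flat_eq_localFlat] at hy ⊢
  obtain ⟨x, hx, hr, hc⟩ := exists_special_lift hp hp2 hA hd1lt hD1ne hd2 hW hy
  exact ⟨x, hx, hr, hc⟩

/-- **the `p`-torsion of `Wd d₁ d₂` lies in the core** when `v(d₁) = v(p) ^ (p n)`. -/
theorem torsion_mem_core (hp : p.Prime) (hp2 : p ≠ 2) (hA : A.LiesOverPrime p) {n : ℕ}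
    (hd1 : v (algebraMap ℚ Qb d₁) = v (p : Qb) ^ (p * n))
    (hd1lt : v (algebraMap ℚ Qb d₁) < 1) (hd2 : v (algebraMap ℚ Qb d₂) = 1)
    (hW : IntegralAt (W₀⁄Qb) A) (P : (W₀⁄Qb).Point) (hP : p • P = 0) :
    P ∈ CoordGood.core W₀ A hW := by
  intro τ
  rw [← flat_eq_localFlat]
  refine torsion_mem_flat hp hp2 hA hd1 hd1lt hd2 hW (τ • P) ?_
  rw [← Inertia.smul_nsmul_point, hP]
  rfl

/-- **(E-MULT) for the Legendre model.**  `p` odd, `A ∣ p`, `v(d₁) = v(p) ^ (p n) < 1`,
`v(d₂) = 1`; `M` a finite `G_ℚ`-stable group of points of `Wd d₁ d₂` killed by `p`: there is a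
finite Galois `L / ℚ_p` with Fontaine's property, all of whose unramified enlargements are "peu
ramifiées", such that the local automorphisms fixing `L` pointwise fix `M` pointwise. -/
theorem exists_peu_Wd [Fact p.Prime] (hp2 : p ≠ 2) (hA : A.LiesOverPrime p) {n : ℕ}
    (hd1 : v (algebraMap ℚ Qb d₁) = v (p : Qb) ^ (p * n))
    (hd1lt : v (algebraMap ℚ Qb d₁) < 1) (hd2 : v (algebraMap ℚ Qb d₂) = 1)
    (M : AddSubgroup (W₀⁄Qb).Point) (hfin : Finite M)
    (hM : ∀ σ : GQ, ∀ y ∈ M, Stab.actE W₀ σ y ∈ M) (hpM : ∀ y ∈ M, p • y = 0) :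
    ∃ L : IntermediateField ℚ_[p] (PadicAlgCl p), FiniteDimensional ℚ_[p] L ∧ IsGalois ℚ_[p] L ∧
      Fermat.Agent.S56.Flat.KummerBound.FontaineProp p L ∧
      (∀ E₀ : IntermediateField ℚ_[p] (PadicAlgCl p),
        Fermat.Agent.S55.Local.Unram.IsUnramifiedIn ℤ_[p] E₀ →
          Fermat.Agent.S56.Flat.KummerBound.IsPeuRamifie p (L ⊔ E₀)) ∧
      ∀ τ : PadicAlgCl p ≃ₐ[ℚ_[p]] PadicAlgCl p, (∀ y ∈ L, τ y = y) →
        ∀ y ∈ M, Stab.actE W₀ (localGaloisToGlobal p τ) y = y := by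
  have hp : p.Prime := Fact.out
  have hp0 : (p : Qb) ≠ 0 := Nat.cast_ne_zero.mpr hp.ne_zero
  have hD1ne : algebraMap ℚ Qb d₁ ≠ 0 := by
    intro h0
    rw [h0, map_zero] at hd1
    exact pow_ne_zero _ ((Valuation.ne_zero_iff v).mpr hp0) hd1.symm
  have hW : IntegralAt (W₀⁄Qb) A := integralAt_Wd hd1lt.le hd2.le
  have hS := isGood_core_Wd hp hp2 hA hd1lt hD1ne hd2 hW
  exact CoordGood.exists_peu_good hp2 hA hS M hfin hM
    (fun y hy => torsion_mem_core hp hp2 hA hd1 hd1lt hd2 hW y (hpM y hy)) hpM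

end Wd

end Fermat.Agent.S40.EM.Decomp
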