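/-
S44 (row 38), (E-MULT), glue (helper29): **the `p`-torsion of an integral model of the Frey curve at
`p ∣ abc` is "peu ramifiée" at `p`, from the decomposition of the `p`-torsion of the Legendre model.**

`P : FreyPackage`, `p = P.p ∣ abc`.  The Frey curve is the variable change `freyChange r` of a
Legendre model `Wd d₁ d₂ : y² = x (x - d₁) (x - d₂)`, `d₁, d₂ ∈ ℤ`, with `v(d₁) = v(p)^(p n)`, `n ≥ 1`,
`v(d₂) = v(d₁ - d₂) = 1` at every place over `p` (`S05/Assembly`, the three cases `p ∣ a, b, c`).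
The Legendre model is integral with nodal reduction at `p`; the input of this file is the
decomposition (helper20's `EM/Decomp`, named hypothesis `Decomp` here):
every `p`-torsion point of `Wd d₁ d₂` is congruent modulo the kernel of reduction at `A` to a point all
of whose conjugates are fixed by the inertia group of `A`.  Then the `p`-torsion of `Wd d₁ d₂` lies in
helper17's `EM/CoordFlat.flat`, carries a Hopf order, and `CoordFlat.exists_peu_flat` gives a finite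
Galois `L / ℚ_p` with Fontaine's property, all of whose unramified enlargements are peu ramifiées,
and such that the local automorphisms fixing `L` fix the `p`-torsion of `Wd d₁ d₂`.

The property "`σ` fixes the `p`-torsion pointwise" does not depend on the model (`S05/Transfer`), so it
passes to the Frey curve, to EVERY integral model `W` of it (minimal at `p` or not), and to every
copy `V` of `W[p]` (`Top/CopyOfE`).

* `exists_wd` : the Legendre data at a prime `q ∣ abc` (uniform in the place over `q`);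
* `integralAt_wd` : the Legendre model with integer parameters is integral;
* `fixes_Tp_iff` : `σ` fixes `W[p]` pointwise iff it fixes the `p`-torsion of `Wd d₁ d₂` pointwise;
* `Decomp`, `DecompStatement` : the hypothesis; `exists_peu_wd` : (E-MULT) for the Legendre model;
* ★ `exists_peu_frey` : (E-MULT) for every integral model `W` of the Frey curve;
* ★ `exists_peu_copyOfE` : the same for a copy `V` of `W[p]` in `J_0(N)[p]`;
* ★ `exists_norm_eq_zpow_of_copyOfE_mult` : the (PEU) package of `S40/P/PeuPack` for `V`.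
-/
import Mathlib
import Fermat.Agent.S40.EM.CoordFlat
import Fermat.Agent.S40.Top.PeuOfCopy
import Fermat.Agent.S05.Assembly
import Fermat.Agent.S58.EC.TorsionCount

set_option autoImplicit false
set_option linter.style.haveILetI false
set_option linter.unusedSectionVars false
set_option linter.unusedVariables false

noncomputable section

namespace Fermat.Agent.S40.EM.Main

open WeierstrassCurve WeierstrassCurve.Affine
open Fermat.Agent.S05 Fermat.Agent.S05.Transfer Fermat.Agent.S05.Arith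
open Fermat.Agent.S19.Abs Fermat.Agent.S40.E Fermat.Agent.S40.EM.CoordFlat

local notation "Qbar" => AlgebraicClosure ℚ
local notation "Γ" => (AlgebraicClosure ℚ ≃ₐ[ℚ] AlgebraicClosure ℚ)

/-! ### The Legendre data of the Frey curve at a prime dividing `abc` -/

section Data

/-- If `q ∣ m ≠ 0` then `v(m^p) = v(q)^(p n)` with `n ≥ 1` independent of the place over `q`. -/
theorem exists_valuation_intCast_pow_uniform {q : ℕ} (hq : q.Prime) {m : ℤ} (hm : m ≠ 0)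
    (h : (q : ℤ) ∣ m) (p : ℕ) :
    ∃ n : ℕ, 1 ≤ n ∧ ∀ A : ValuationSubring Qbar, A.LiesOverPrime q →
      A.valuation ((m : Qbar) ^ p) = A.valuation (q : Qbar) ^ (p * n) := by
  have hfin : FiniteMultiplicity (q : ℤ) m :=
    Int.finiteMultiplicity_iff.mpr ⟨by simpa using hq.ne_one, hm⟩
  obtain ⟨c, hc, hqc⟩ := hfin.exists_eq_pow_mul_and_not_dvd
  refine ⟨multiplicity (q : ℤ) m, Nat.one_le_iff_ne_zero.mpr (multiplicity_ne_zero.mpr h),
    fun A hA => ?_⟩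
  have hcast : (m : Qbar) = (q : Qbar) ^ multiplicity (q : ℤ) m * (c : Qbar) := by
    conv_lhs => rw [hc]
    push_cast
    ring
  rw [hcast, mul_pow, map_mul, map_pow (A.valuation) (c : Qbar),
    valuation_intCast_eq_one A hq hA hqc, one_pow, mul_one, ← pow_mul, map_pow, mul_comm]

/-- **The Legendre data of the Frey curve at a prime `q ∣ abc`** (`q = P.p` allowed). -/
theorem exists_wd (P : FreyPackage) {q : ℕ} (hq : q.Prime) (habc : (q : ℤ) ∣ P.a * P.b * P.c) :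
    ∃ (r : ℚ) (d₁ d₂ : ℤ) (n : ℕ), 1 ≤ n ∧
      P.freyCurve = freyChange r • Wd (d₁ : ℚ) (d₂ : ℚ) ∧
      ∀ A : ValuationSubring Qbar, A.LiesOverPrime q →
        A.valuation ((d₁ : ℤ) : Qbar) = A.valuation (q : Qbar) ^ (P.p * n) ∧
        A.valuation ((d₂ : ℤ) : Qbar) = 1 ∧ A.valuation (((d₁ - d₂ : ℤ) : ℤ) : Qbar) = 1 := by
  have hqi : Prime (q : ℤ) := Nat.prime_iff_prime_int.mp hq
  have hFLT : P.a ^ P.p + P.b ^ P.p = P.c ^ P.p := P.hFLT
  have hcases : (q : ℤ) ∣ P.a ∨ (q : ℤ) ∣ P.b ∨ (q : ℤ) ∣ P.c := by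
    rcases hqi.dvd_or_dvd habc with h | h
    · rcases hqi.dvd_or_dvd h with h | h
      · exact Or.inl h
      · exact Or.inr (Or.inl h)
    · exact Or.inr (Or.inr h)
  rcases hcases with ha | hb | hc
  · -- `q ∣ a`
    have hb := not_dvd_b_of_dvd_a P hq ha
    have hc := not_dvd_c_of_dvd_a P hq ha
    obtain ⟨n, hn, hv⟩ := exists_valuation_intCast_pow_uniform hq P.ha0 ha P.p
    refine ⟨0, P.a ^ P.p, -P.b ^ P.p, n, hn, ?_, fun A hA => ⟨?_, ?_, ?_⟩⟩
    · have := freyCurve_eq_a P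
      push_cast
      exact this
    · push_cast
      exact hv A hA
    · push_cast
      rw [Valuation.map_neg]
      exact valuation_intCast_pow_eq_one A hq hA hb P.p
    · have h1 : P.a ^ P.p - -P.b ^ P.p = P.c ^ P.p := by linarith
      rw [h1]
      push_cast
      exact valuation_intCast_pow_eq_one A hq hA hc P.p
  · -- `q ∣ b`
    have ha := not_dvd_a_of_dvd_b P hq hb
    have hc := not_dvd_c_of_dvd_b P hq hb
    obtain ⟨n, hn, hv⟩ := exists_valuation_intCast_pow_uniform hq P.hb0 hb P.p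
    refine ⟨0, -P.b ^ P.p, P.a ^ P.p, n, hn, ?_, fun A hA => ⟨?_, ?_, ?_⟩⟩
    · have := freyCurve_eq_b P
      push_cast
      exact this
    · push_cast
      rw [Valuation.map_neg]
      exact hv A hA
    · push_cast
      exact valuation_intCast_pow_eq_one A hq hA ha P.p
    · have h1 : -P.b ^ P.p - P.a ^ P.p = -P.c ^ P.p := by linarith
      rw [h1]
      push_cast
      rw [Valuation.map_neg]
      exact valuation_intCast_pow_eq_one A hq hA hc P.p
  · -- `q ∣ c`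
    have ha := not_dvd_a_of_dvd_c P hq hc
    have hb := not_dvd_b_of_dvd_c P hq hc
    obtain ⟨n, hn, hv⟩ := exists_valuation_intCast_pow_uniform hq P.hc0 hc P.p
    refine ⟨-(P.a : ℚ) ^ P.p, -P.c ^ P.p, -P.a ^ P.p, n, hn, ?_, fun A hA => ⟨?_, ?_, ?_⟩⟩
    · have := freyCurve_eq_c P
      push_cast
      exact this
    · push_cast
      rw [Valuation.map_neg]
      exact hv A hA
    · push_cast
      rw [Valuation.map_neg]
      exact valuation_intCast_pow_eq_one A hq hA ha P.p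
    · have h1 : -P.c ^ P.p - -P.a ^ P.p = -P.b ^ P.p := by linarith
      rw [h1]
      push_cast
      rw [Valuation.map_neg]
      exact valuation_intCast_pow_eq_one A hq hA hb P.p

/-- The Legendre model with integer parameters is integral at every valuation subring. -/
theorem integralAt_wd (d₁ d₂ : ℤ) (A : ValuationSubring Qbar) :
    IntegralAt ((Wd (d₁ : ℚ) (d₂ : ℚ)).toAffine⁄Qbar) A := by
  have h1 : algebraMap ℚ Qbar (d₁ : ℚ) ∈ A := by
    rw [map_intCast]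
    exact intCast_mem A d₁
  have h2 : algebraMap ℚ Qbar (d₂ : ℚ) ∈ A := by
    rw [map_intCast]
    exact intCast_mem A d₂
  rw [Wd_baseChange]
  refine ⟨?_, ?_, ?_, ?_, ?_⟩
  · simp
  · simp only [Wd_a₂]
    exact A.neg_mem _ (A.add_mem _ _ h1 h2)
  · simp
  · simp only [Wd_a₄]
    exact A.mul_mem _ _ h1 h2
  · simp

end Data

/-! ### "`σ` fixes the `p`-torsion" does not depend on the model -/

section Fixes

variable (P : FreyPackage) {W : WeierstrassCurve ℤ}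

/-- For an integral model `W` of the Frey curve: `σ` fixes `W(ℚ̄)[n]` pointwise iff it fixes the
`n`-torsion of the Frey curve pointwise. -/
theorem fixes_model_iff (hW : W.IsIntegralModelOf P.freyCurve) (σ : Γ) (n : ℕ) :
    (∀ x : Submodule.torsionBy ℤ ((W.map (Int.castRingHom ℚ)).toAffine⁄Qbar).Point n, σ • x = x) ↔
      ∀ x : Submodule.torsionBy ℤ (P.freyCurve.toAffine⁄Qbar).Point n, σ • x = x := by
  obtain ⟨C, hC⟩ := hW
  rw [← hC]
  exact fixes_torsionBy_iff (S := ℚ) (K := Qbar) P.freyCurve C σ n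

/-- For an integral model `W` of the Frey curve `= freyChange r • Wd d₁ d₂`: `σ` fixes `W(ℚ̄)[n]`
pointwise iff it fixes the `n`-torsion of the Legendre model pointwise. -/
theorem fixes_model_iff_wd (hW : W.IsIntegralModelOf P.freyCurve) {r d₁ d₂ : ℚ}
    (h : P.freyCurve = freyChange r • Wd d₁ d₂) (σ : Γ) (n : ℕ) :
    (∀ x : Submodule.torsionBy ℤ ((W.map (Int.castRingHom ℚ)).toAffine⁄Qbar).Point n, σ • x = x) ↔
      ∀ x : Submodule.torsionBy ℤ ((Wd d₁ d₂).toAffine⁄Qbar).Point n, σ • x = x :=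
  (fixes_model_iff P hW σ n).trans (frey_fixes_torsionBy_iff P h σ n)

end Fixes

/-! ### The `p`-torsion of the Legendre model -/

section TorsWd

variable (d₁ d₂ : ℤ) (p : ℕ)

/-- the `p`-torsion of the Legendre model over `ℚ̄` as an additive subgroup of the points -/
def torsWd : AddSubgroup ((Wd (d₁ : ℚ) (d₂ : ℚ)).toAffine⁄Qbar).Point :=
  (Submodule.torsionBy ℤ ((Wd (d₁ : ℚ) (d₂ : ℚ)).toAffine⁄Qbar).Point p).toAddSubgroup

variable {d₁ d₂ p}

theorem mem_torsWd_iff_mem_torsionBy {y : ((Wd (d₁ : ℚ) (d₂ : ℚ)).toAffine⁄Qbar).Point} :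
    y ∈ torsWd d₁ d₂ p ↔
      y ∈ Submodule.torsionBy ℤ ((Wd (d₁ : ℚ) (d₂ : ℚ)).toAffine⁄Qbar).Point p := Iff.rfl

theorem mem_torsWd_iff {y : ((Wd (d₁ : ℚ) (d₂ : ℚ)).toAffine⁄Qbar).Point} :
    y ∈ torsWd d₁ d₂ p ↔ p • y = 0 := by
  rw [mem_torsWd_iff_mem_torsionBy, Submodule.mem_torsionBy_iff, natCast_zsmul]

theorem Δ_wd (e₁ e₂ : Qbar) : (Wd e₁ e₂).Δ = 16 * e₁ ^ 2 * e₂ ^ 2 * (e₁ - e₂) ^ 2 := by
  simp only [WeierstrassCurve.Δ, WeierstrassCurve.b₂, WeierstrassCurve.b₄, WeierstrassCurve.b₆,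
    WeierstrassCurve.b₈, Wd_a₁, Wd_a₂, Wd_a₃, Wd_a₄, Wd_a₆]
  ring

theorem Δ_wd_ne_zero (h₁ : d₁ ≠ 0) (h₂ : d₂ ≠ 0) (h₁₂ : d₁ ≠ d₂) :
    ((Wd (d₁ : ℚ) (d₂ : ℚ)).toAffine⁄Qbar).Δ ≠ 0 := by
  rw [Wd_baseChange, Δ_wd, map_intCast, map_intCast]
  have e1 : ((d₁ : ℤ) : Qbar) ≠ 0 := Int.cast_ne_zero.mpr h₁
  have e2 : ((d₂ : ℤ) : Qbar) ≠ 0 := Int.cast_ne_zero.mpr h₂
  have e3 : ((d₁ : ℤ) : Qbar) - ((d₂ : ℤ) : Qbar) ≠ 0 := by
    rw [← Int.cast_sub]
    exact Int.cast_ne_zero.mpr (sub_ne_zero.mpr h₁₂)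
  have e4 : (16 : Qbar) ≠ 0 := by norm_num
  exact mul_ne_zero (mul_ne_zero (mul_ne_zero e4 (pow_ne_zero 2 e1)) (pow_ne_zero 2 e2))
    (pow_ne_zero 2 e3)

theorem finite_torsWd (hp : p.Prime) (hp2 : p ≠ 2) (h₁ : d₁ ≠ 0) (h₂ : d₂ ≠ 0) (h₁₂ : d₁ ≠ d₂) :
    Finite (torsWd d₁ d₂ p) := by
  have hcard := Fermat.Agent.S58.EC.TorsionCount.card_torsionBy
    (W := (Wd (d₁ : ℚ) (d₂ : ℚ)).toAffine⁄Qbar) (Δ_wd_ne_zero h₁ h₂ h₁₂)
    (hp.odd_of_ne_two hp2) (by exact_mod_cast hp.ne_zero : ((p : ℕ) : Qbar) ≠ 0)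
  exact Nat.finite_of_card_ne_zero (by
    show Nat.card (Submodule.torsionBy ℤ ((Wd (d₁ : ℚ) (d₂ : ℚ)).toAffine⁄Qbar).Point p) ≠ 0
    rw [hcard]
    exact pow_ne_zero _ hp.ne_zero)

theorem smul_mem_torsWd (σ : Γ) {y : ((Wd (d₁ : ℚ) (d₂ : ℚ)).toAffine⁄Qbar).Point}
    (hy : y ∈ torsWd d₁ d₂ p) : Stab.actE (Wd (d₁ : ℚ) (d₂ : ℚ)).toAffine σ y ∈ torsWd d₁ d₂ p :=
  mem_torsWd_iff_mem_torsionBy.mpr
    (WeierstrassCurve.Affine.Point.smul_mem_torsionBy σ (mem_torsWd_iff_mem_torsionBy.mp hy))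

end TorsWd

/-! ### The decomposition hypothesis and (E-MULT) -/

section Main

open Fermat.Agent.S56.Flat Fermat.Agent.S56.Flat.PointsField Fermat.Agent.S56.Flat.KummerBound
  Fermat.Agent.S56.Flat.Etale.Connected Fermat.Agent.S55.Local.Unram
  Fermat.Agent.S40.P.PeuUnram Fermat.Agent.S40.P.PeuPack

/-- **The decomposition of the `p`-torsion of the Legendre model at `A`** (output of `EM/Decomp`):
every `p`-torsion point is congruent modulo the kernel of reduction at `A` to a point all of whose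
conjugates are fixed by the inertia group of `A`. -/
def Decomp (d₁ d₂ : ℤ) (p : ℕ) (A : ValuationSubring Qbar) : Prop :=
  ∀ y : ((Wd (d₁ : ℚ) (d₂ : ℚ)).toAffine⁄Qbar).Point, p • y = 0 →
    ∃ x ∈ unrAll (Wd (d₁ : ℚ) (d₂ : ℚ)).toAffine A,
      y - x ∈ Reduction.kerRed A (integralAt_wd d₁ d₂ A)

/-- The decomposition for all Legendre models with multiplicative reduction of exponent divisible
by `p` at a place `A` over `p` — the named hypothesis (helper20's (A)+(C)). -/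
def DecompStatement (p : ℕ) : Prop :=
  ∀ A : ValuationSubring Qbar, A.LiesOverPrime p → ∀ (d₁ d₂ : ℤ) (n : ℕ), 1 ≤ n →
    A.valuation ((d₁ : ℤ) : Qbar) = A.valuation (p : Qbar) ^ (p * n) →
    A.valuation ((d₂ : ℤ) : Qbar) = 1 → A.valuation (((d₁ - d₂ : ℤ) : ℤ) : Qbar) = 1 →
    Decomp d₁ d₂ p A

variable {p : ℕ} [Fact p.Prime]

local notation "Ω" => PadicAlgCl p

theorem torsWd_le_flat {d₁ d₂ : ℤ} {A : ValuationSubring Qbar} (hdec : Decomp d₁ d₂ p A) :
    torsWd d₁ d₂ p ≤ flat (Wd (d₁ : ℚ) (d₂ : ℚ)).toAffine A (integralAt_wd d₁ d₂ A) :=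
  le_flat_of_forall (fun σ y hy => smul_mem_torsWd σ hy)
    (fun y hy => hdec y (mem_torsWd_iff.mp hy))

/-- **(E-MULT) for the Legendre model.** -/
theorem exists_peu_wd (hp2 : p ≠ 2) {d₁ d₂ : ℤ} (h₁ : d₁ ≠ 0) (h₂ : d₂ ≠ 0) (h₁₂ : d₁ ≠ d₂)
    {A : ValuationSubring Qbar} (hA : A.LiesOverPrime p) (hdec : Decomp d₁ d₂ p A) :
    ∃ L : IntermediateField ℚ_[p] Ω, FiniteDimensional ℚ_[p] L ∧ IsGalois ℚ_[p] L ∧
      FontaineProp p L ∧
      (∀ E₀ : IntermediateField ℚ_[p] Ω, IsUnramifiedIn ℤ_[p] E₀ → IsPeuRamifie p (L ⊔ E₀)) ∧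
      ∀ τ : Ω ≃ₐ[ℚ_[p]] Ω, (∀ y ∈ L, τ y = y) →
        ∀ x : Submodule.torsionBy ℤ ((Wd (d₁ : ℚ) (d₂ : ℚ)).toAffine⁄Qbar).Point p,
          localGaloisToGlobal p τ • x = x := by
  obtain ⟨L, h1, h2, h3, h4, h5⟩ := exists_peu_flat hp2 hA (integralAt_wd d₁ d₂ A)
    (torsWd d₁ d₂ p) (finite_torsWd Fact.out hp2 h₁ h₂ h₁₂)
    (fun σ y hy => smul_mem_torsWd σ hy) (torsWd_le_flat hdec)
    (fun y hy => mem_torsWd_iff.mp hy)
  exact ⟨L, h1, h2, h3, h4, fun τ hτ x => Subtype.ext (h5 τ hτ x.1 x.2)⟩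

end Main

/-! ### (E-MULT) for the integral models of the Frey curve -/

section Frey

open Fermat.Agent.S56.Flat Fermat.Agent.S56.Flat.PointsField Fermat.Agent.S56.Flat.KummerBound
  Fermat.Agent.S56.Flat.Etale.Connected Fermat.Agent.S55.Local.Unram
  Fermat.Agent.S40.P.PeuUnram Fermat.Agent.S40.P.PeuPack
open Fermat.Agent.S56.Places.Dict
open Fermat.Agent.N4F.Res Fermat.Agent.S40.Top.CopyOfE Fermat.Agent.S40.Top.PeuOfCopy
open Fermat.Agent.S58.Form.Hres (Tp)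

variable (P : FreyPackage)

/-- The three nonvanishing conditions from the valuations. -/
theorem ne_of_valuations {p : ℕ} (hp : p.Prime) {A : ValuationSubring Qbar} {d₁ d₂ : ℤ} {n : ℕ}
    (hv₁ : A.valuation ((d₁ : ℤ) : Qbar) = A.valuation (p : Qbar) ^ (p * n))
    (hv₂ : A.valuation ((d₂ : ℤ) : Qbar) = 1)
    (hv₁₂ : A.valuation (((d₁ - d₂ : ℤ) : ℤ) : Qbar) = 1) : d₁ ≠ 0 ∧ d₂ ≠ 0 ∧ d₁ ≠ d₂ := by
  refine ⟨?_, ?_, ?_⟩
  · rintro rfl
    rw [Int.cast_zero, map_zero] at hv₁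
    have hp0 : A.valuation (p : Qbar) ≠ 0 :=
      (Valuation.ne_zero_iff _).mpr (by exact_mod_cast hp.ne_zero)
    exact pow_ne_zero _ hp0 hv₁.symm
  · rintro rfl
    rw [Int.cast_zero, map_zero] at hv₂
    exact zero_ne_one hv₂
  · intro h
    rw [h, sub_self, Int.cast_zero, map_zero] at hv₁₂
    exact zero_ne_one hv₁₂

/-- ★ **(E-MULT).**  `p = P.p ∣ abc`, `W` ANY integral model of the Frey curve: there is a finite
Galois extension `L / ℚ_p` with Fontaine's property, all of whose unramified enlargements are peu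
ramifiées, such that the local automorphisms fixing `L` pointwise fix `W(ℚ̄)[p]` pointwise. -/
theorem exists_peu_frey (habc : (P.p : ℤ) ∣ P.a * P.b * P.c) (hdec : DecompStatement P.p)
    {W : WeierstrassCurve ℤ} (hW : W.IsIntegralModelOf P.freyCurve) :
    haveI : Fact P.p.Prime := ⟨P.pp⟩
    ∃ L : IntermediateField ℚ_[P.p] (PadicAlgCl P.p), FiniteDimensional ℚ_[P.p] L ∧
      IsGalois ℚ_[P.p] L ∧ FontaineProp P.p L ∧
      (∀ E₀ : IntermediateField ℚ_[P.p] (PadicAlgCl P.p), IsUnramifiedIn ℤ_[P.p] E₀ →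
        IsPeuRamifie P.p (L ⊔ E₀)) ∧
      ∀ τ : PadicAlgCl P.p ≃ₐ[ℚ_[P.p]] PadicAlgCl P.p, (∀ y ∈ L, τ y = y) →
        ∀ e : Tp P.p W, localGaloisToGlobal P.p τ • e = e := by
  haveI : Fact P.p.Prime := ⟨P.pp⟩
  have hp2 : P.p ≠ 2 := by
    have := P.hp5
    omega
  obtain ⟨r, d₁, d₂, n, hn, hfrey, hval⟩ := exists_wd P P.pp habc
  have hA := liesOverPrime_padicPlace P.p
  obtain ⟨hv₁, hv₂, hv₁₂⟩ := hval (padicPlace P.p) hA
  obtain ⟨h₁, h₂, h₁₂⟩ := ne_of_valuations P.pp hv₁ hv₂ hv₁₂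
  obtain ⟨L, e1, e2, e3, e4, e5⟩ := exists_peu_wd hp2 h₁ h₂ h₁₂ hA
    (hdec (padicPlace P.p) hA d₁ d₂ n hn hv₁ hv₂ hv₁₂)
  exact ⟨L, e1, e2, e3, e4, fun τ hτ =>
    (fixes_model_iff_wd P hW hfrey (localGaloisToGlobal P.p τ) P.p).mpr (e5 τ hτ)⟩

/-- ★ **(E-MULT) for a copy `V` of `W[p]`** inside `J_0(N)[p]`. -/
theorem exists_peu_copyOfE (habc : (P.p : ℤ) ∣ P.a * P.b * P.c) (hdec : DecompStatement P.p)
    {W : WeierstrassCurve ℤ} (hW : W.IsIntegralModelOf P.freyCurve)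
    {N : ℕ} [NeZero N] :
    haveI : Fact P.p.Prime := ⟨P.pp⟩
    ∀ (V : Submodule (ZMod P.p) (Jtors N P.p)), CopyOfE W P.p V →
    ∃ L : IntermediateField ℚ_[P.p] (PadicAlgCl P.p), FiniteDimensional ℚ_[P.p] L ∧
      IsGalois ℚ_[P.p] L ∧ FontaineProp P.p L ∧
      (∀ E₀ : IntermediateField ℚ_[P.p] (PadicAlgCl P.p), IsUnramifiedIn ℤ_[P.p] E₀ →
        IsPeuRamifie P.p (L ⊔ E₀)) ∧
      ∀ τ : PadicAlgCl P.p ≃ₐ[ℚ_[P.p]] PadicAlgCl P.p, (∀ y ∈ L, τ y = y) →
        ∀ x : Jtors N P.p, x ∈ V → galTors N P.p (localGaloisToGlobal P.p τ) x = x := by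
  haveI : Fact P.p.Prime := ⟨P.pp⟩
  intro V hC
  obtain ⟨L, e1, e2, e3, e4, e5⟩ := exists_peu_frey P habc hdec hW
  exact ⟨L, e1, e2, e3, e4, fun τ hτ x hx => hC.fixes_of_fixes _ (e5 τ hτ) x hx⟩

/-- ★ **(PEU) package for a copy `V` of `W[p]`, multiplicative case** (the analogue of
`Top/PeuOfCopy.exists_norm_eq_zpow_of_copyOfE` with `p ∣ abc` in place of good reduction). -/
theorem exists_norm_eq_zpow_of_copyOfE_mult (habc : (P.p : ℤ) ∣ P.a * P.b * P.c)
    (hdec : DecompStatement P.p) {W : WeierstrassCurve ℤ} (hW : W.IsIntegralModelOf P.freyCurve)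
    (hΔ : W.Δ ≠ 0) {N : ℕ} [NeZero N] :
    haveI : Fact P.p.Prime := ⟨P.pp⟩
    ∀ (V : Submodule (ZMod P.p) (Jtors N P.p)), CopyOfE W P.p V →
    ∀ {U : Qbar}, U ≠ 0 →
      (∀ σ ∈ (padicPlace P.p).inertiaSubgroupIn ℚ, (σ U / U) ^ P.p = 1) →
      (∀ σ ∈ (padicPlace P.p).inertiaSubgroupIn ℚ,
        (∀ x : Jtors N P.p, x ∈ V → galTors N P.p σ x = x) → σ U = U) →
      ∃ m : ℤ, ‖padicEmbedding P.p U‖ = (P.p : ℝ) ^ m := by
  haveI : Fact P.p.Prime := ⟨P.pp⟩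
  intro V hC U hU h1 h2
  have hp2 : P.p ≠ 2 := by
    have := P.hp5
    omega
  obtain ⟨r, d₁, d₂, n, hn, hfrey, hval⟩ := exists_wd P P.pp habc
  have hA := liesOverPrime_padicPlace P.p
  obtain ⟨hv₁, hv₂, hv₁₂⟩ := hval (padicPlace P.p) hA
  obtain ⟨h₁, h₂, h₁₂⟩ := ne_of_valuations P.pp hv₁ hv₂ hv₁₂
  have hD := hdec (padicPlace P.p) hA d₁ d₂ n hn hv₁ hv₂ hv₁₂
  obtain ⟨ζ, hζ⟩ := Fermat.Agent.N4F.Res.exists_isPrimitiveRoot_Qbar P.p
  -- fixing the torsion of the Legendre model = fixing `W[p]`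
  have hfix : ∀ σ : Γ, (∀ y ∈ torsWd d₁ d₂ P.p,
      Stab.actE (Wd (d₁ : ℚ) (d₂ : ℚ)).toAffine σ y = y) → ∀ e : Tp P.p W, σ • e = e := by
    intro σ hσ
    refine (fixes_model_iff_wd P hW hfrey σ P.p).mpr fun x => Subtype.ext ?_
    exact hσ x.1 x.2
  refine exists_norm_eq_zpow_of_flat hp2 hA (integralAt_wd d₁ d₂ _) (torsWd d₁ d₂ P.p)
    (finite_torsWd P.pp hp2 h₁ h₂ h₁₂) (fun σ y hy => smul_mem_torsWd σ hy) (torsWd_le_flat hD)
    (fun y hy => mem_torsWd_iff.mp hy) hζ ?_ hU h1 ?_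
  · intro σ hσ
    exact fixes_zeta_of_fixes hΔ hp2 σ (hfix σ hσ) hζ
  · intro σ hσI hσ
    exact h2 σ hσI (fun x hx => hC.fixes_of_fixes σ (hfix σ hσ) x hx)

end Frey

end Fermat.Agent.S40.EM.Main
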