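/-
S44 (row 38), (E-MULT), UNCONDITIONAL form for the Frey curve (helper29):
**for `p = P.p ∣ abc` the `p`-torsion of every integral model `W` of the Frey curve is
"peu ramifiée" at `p`.**

`EM/Main` (Frey ↔ Legendre model `Wd d₁ d₂`, transport of "`σ` fixes the `p`-torsion" to every
integral model and to every copy `V` of `W[p]`) + helper20's `EM/Decomp`
(`exists_peu_Wd`, `isGood_core_Wd`, `torsion_mem_core`: the `p`-torsion of the Legendre model with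
`v(d₁) = v(p)^(p n)`, `v(d₂) = 1` lies in a good subgroup) + helper17's `EM/CoordGood`.

* ★ `exists_peu_frey` : a finite Galois `L / ℚ_p` with Fontaine's property, all of whose unramified
  enlargements are peu ramifiées, such that the local automorphisms fixing `L` fix `W(ℚ̄)[p]`;
* ★ `exists_peu_copyOfE` : the same for a copy `V` of `W[p]` in `J_0(N)[p]` (`Top/CopyOfE`);
* ★ `exists_norm_eq_zpow_of_copyOfE_mult` : the (PEU) package of `S40/P/PeuPack` for `V`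
  (the analogue of `Top/PeuOfCopy.exists_norm_eq_zpow_of_copyOfE`, no good reduction).
-/
import Mathlib
import Fermat.Agent.S40.EM.Main
import Fermat.Agent.S40.EM.Decomp

set_option autoImplicit false
set_option linter.style.haveILetI false
set_option linter.unusedSectionVars false
set_option linter.unusedVariables false

noncomputable section

namespace Fermat.Agent.S40.EM.Frey

open WeierstrassCurve WeierstrassCurve.Affine
open Fermat.Agent.S05 Fermat.Agent.S05.Transfer Fermat.Agent.S05.Arith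
open Fermat.Agent.S19.Abs Fermat.Agent.S40.E Fermat.Agent.S40.EM.Main
open Fermat.Agent.S56.Flat Fermat.Agent.S56.Flat.PointsField Fermat.Agent.S56.Flat.KummerBound
  Fermat.Agent.S56.Flat.Etale.Connected Fermat.Agent.S55.Local.Unram
  Fermat.Agent.S40.P.PeuUnram Fermat.Agent.S40.P.PeuPack
open Fermat.Agent.S56.Places.Dict
open Fermat.Agent.N4F.Res Fermat.Agent.S40.Top.CopyOfE Fermat.Agent.S40.Top.PeuOfCopy
open Fermat.Agent.S58.Form.Hres (Tp)

local notation "Qbar" => AlgebraicClosure ℚ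
local notation "Γ" => (AlgebraicClosure ℚ ≃ₐ[ℚ] AlgebraicClosure ℚ)

/-- `v(p)^(p n) < 1` for `n ≥ 1` at a place over `p`. -/
theorem valuation_pow_lt_one {p : ℕ} (hp : p.Prime) {A : ValuationSubring Qbar}
    (hA : A.LiesOverPrime p) {n : ℕ} (hn : 1 ≤ n) : A.valuation (p : Qbar) ^ (p * n) < 1 := by
  have h1 : A.valuation (p : Qbar) < 1 := (liesOverPrime_iff A p).mp hA
  have h0 : p * n ≠ 0 := Nat.mul_ne_zero hp.ne_zero (by omega)
  exact pow_lt_one₀ zero_le h1 h0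

variable (P : FreyPackage)

/-- ★ **(E-MULT), unconditional.**  `p = P.p ∣ abc`, `W` ANY integral model of the Frey curve. -/
theorem exists_peu_frey (habc : (P.p : ℤ) ∣ P.a * P.b * P.c)
    {W : WeierstrassCurve ℤ} (hW : W.IsIntegralModelOf P.freyCurve) :
    haveI : Fact P.p.Prime := ⟨P.pp⟩
    ∃ L : IntermediateField ℚ_[P.p] (PadicAlgCl P.p), FiniteDimensional ℚ_[P.p] L ∧
      IsGalois ℚ_[P.p] L ∧ FontaineProp P.p L ∧
      (∀ E₀ : IntermediateField ℚ_[P.p] (PadicAlgCl P.p), IsUnramifiedIn ℤ_[P.p] E₀ →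
        IsPeuRamifie P.p (L ⊔ E₀)) ∧
      ∀ τ : PadicAlgCl P.p ≃ₐ[ℚ_[P.p]] PadicAlgCl P.p, (∀ y ∈ L, τ y = y) →
        ∀ e : Tp P.p W, localGaloisToGlobal P.p τ • e = e := by
  haveI : Fact P.p.Prime := ⟨P.pp⟩
  have hp2 : P.p ≠ 2 := by
    have := P.hp5
    omega
  obtain ⟨r, d₁, d₂, n, hn, hfrey, hval⟩ := exists_wd P P.pp habc
  have hA := liesOverPrime_padicPlace P.p
  obtain ⟨hv₁, hv₂, hv₁₂⟩ := hval (padicPlace P.p) hA
  obtain ⟨h₁, h₂, h₁₂⟩ := ne_of_valuations P.pp hv₁ hv₂ hv₁₂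
  have hd1 : (padicPlace P.p).valuation (algebraMap ℚ Qbar (d₁ : ℚ)) =
      (padicPlace P.p).valuation (P.p : Qbar) ^ (P.p * n) := by
    rw [map_intCast]
    exact hv₁
  have hd1lt : (padicPlace P.p).valuation (algebraMap ℚ Qbar (d₁ : ℚ)) < 1 := by
    rw [hd1]
    exact valuation_pow_lt_one P.pp hA hn
  have hd2 : (padicPlace P.p).valuation (algebraMap ℚ Qbar (d₂ : ℚ)) = 1 := by
    rw [map_intCast]
    exact hv₂
  obtain ⟨L, e1, e2, e3, e4, e5⟩ := Fermat.Agent.S40.EM.Decomp.exists_peu_Wd hp2 hA hd1 hd1lt hd2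
    (torsWd d₁ d₂ P.p) (finite_torsWd P.pp hp2 h₁ h₂ h₁₂) (fun σ y hy => smul_mem_torsWd σ hy)
    (fun y hy => mem_torsWd_iff.mp hy)
  refine ⟨L, e1, e2, e3, e4, fun τ hτ => ?_⟩
  refine (fixes_model_iff_wd P hW hfrey (localGaloisToGlobal P.p τ) P.p).mpr fun x => ?_
  exact Subtype.ext (e5 τ hτ x.1 x.2)

/-- ★ **(E-MULT) for a copy `V` of `W[p]`** inside `J_0(N)[p]`, unconditional. -/
theorem exists_peu_copyOfE (habc : (P.p : ℤ) ∣ P.a * P.b * P.c)
    {W : WeierstrassCurve ℤ} (hW : W.IsIntegralModelOf P.freyCurve) {N : ℕ} [NeZero N] :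
    haveI : Fact P.p.Prime := ⟨P.pp⟩
    ∀ (V : Submodule (ZMod P.p) (Jtors N P.p)), CopyOfE W P.p V →
    ∃ L : IntermediateField ℚ_[P.p] (PadicAlgCl P.p), FiniteDimensional ℚ_[P.p] L ∧
      IsGalois ℚ_[P.p] L ∧ FontaineProp P.p L ∧
      (∀ E₀ : IntermediateField ℚ_[P.p] (PadicAlgCl P.p), IsUnramifiedIn ℤ_[P.p] E₀ →
        IsPeuRamifie P.p (L ⊔ E₀)) ∧
      ∀ τ : PadicAlgCl P.p ≃ₐ[ℚ_[P.p]] PadicAlgCl P.p, (∀ y ∈ L, τ y = y) →
        ∀ x : Jtors N P.p, x ∈ V → galTors N P.p (localGaloisToGlobal P.p τ) x = x := by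
  haveI : Fact P.p.Prime := ⟨P.pp⟩
  intro V hC
  obtain ⟨L, e1, e2, e3, e4, e5⟩ := exists_peu_frey P habc hW
  exact ⟨L, e1, e2, e3, e4, fun τ hτ x hx => hC.fixes_of_fixes _ (e5 τ hτ) x hx⟩

/-- ★ **(PEU) package for a copy `V` of `W[p]`, multiplicative case, unconditional.** -/
theorem exists_norm_eq_zpow_of_copyOfE_mult (habc : (P.p : ℤ) ∣ P.a * P.b * P.c)
    {W : WeierstrassCurve ℤ} (hW : W.IsIntegralModelOf P.freyCurve)
    (hΔ : W.Δ ≠ 0) {N : ℕ} [NeZero N] :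
    haveI : Fact P.p.Prime := ⟨P.pp⟩
    ∀ (V : Submodule (ZMod P.p) (Jtors N P.p)), CopyOfE W P.p V →
    ∀ {U : Qbar}, U ≠ 0 →
      (∀ σ ∈ (padicPlace P.p).inertiaSubgroupIn ℚ, (σ U / U) ^ P.p = 1) →
      (∀ σ ∈ (padicPlace P.p).inertiaSubgroupIn ℚ,
        (∀ x : Jtors N P.p, x ∈ V → galTors N P.p σ x = x) → σ U = U) →
      ∃ m : ℤ, ‖padicEmbedding P.p U‖ = (P.p : ℝ) ^ m := by
  haveI : Fact P.p.Prime := ⟨P.pp⟩
  intro V hC U hU h1 h2
  have hp2 : P.p ≠ 2 := by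
    have := P.hp5
    omega
  obtain ⟨r, d₁, d₂, n, hn, hfrey, hval⟩ := exists_wd P P.pp habc
  have hA := liesOverPrime_padicPlace P.p
  obtain ⟨hv₁, hv₂, hv₁₂⟩ := hval (padicPlace P.p) hA
  obtain ⟨h₁, h₂, h₁₂⟩ := ne_of_valuations P.pp hv₁ hv₂ hv₁₂
  have hd1 : (padicPlace P.p).valuation (algebraMap ℚ Qbar (d₁ : ℚ)) =
      (padicPlace P.p).valuation (P.p : Qbar) ^ (P.p * n) := by
    rw [map_intCast]
    exact hv₁
  have hd1lt : (padicPlace P.p).valuation (algebraMap ℚ Qbar (d₁ : ℚ)) < 1 := by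
    rw [hd1]
    exact valuation_pow_lt_one P.pp hA hn
  have hd2 : (padicPlace P.p).valuation (algebraMap ℚ Qbar (d₂ : ℚ)) = 1 := by
    rw [map_intCast]
    exact hv₂
  have hD1ne : algebraMap ℚ Qbar (d₁ : ℚ) ≠ 0 := by
    rw [map_intCast]
    exact Int.cast_ne_zero.mpr h₁
  have hInt := integralAt_wd d₁ d₂ (padicPlace P.p)
  have hS := Fermat.Agent.S40.EM.Decomp.isGood_core_Wd P.pp hp2 hA hd1lt hD1ne hd2 hInt
  obtain ⟨ζ, hζ⟩ := Fermat.Agent.N4F.Res.exists_isPrimitiveRoot_Qbar P.p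
  have hfix : ∀ σ : Γ, (∀ y ∈ torsWd d₁ d₂ P.p,
      Stab.actE (Wd (d₁ : ℚ) (d₂ : ℚ)).toAffine σ y = y) → ∀ e : Tp P.p W, σ • e = e := by
    intro σ hσ
    refine (fixes_model_iff_wd P hW hfrey σ P.p).mpr fun x => Subtype.ext ?_
    exact hσ x.1 x.2
  refine Fermat.Agent.S40.EM.CoordGood.exists_norm_eq_zpow_of_good hp2 hA hS (torsWd d₁ d₂ P.p)
    (finite_torsWd P.pp hp2 h₁ h₂ h₁₂) (fun σ y hy => smul_mem_torsWd σ hy)
    (fun y hy => Fermat.Agent.S40.EM.Decomp.torsion_mem_core P.pp hp2 hA hd1 hd1lt hd2 hInt y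
      (mem_torsWd_iff.mp hy))
    (fun y hy => mem_torsWd_iff.mp hy) hζ ?_ hU h1 ?_
  · intro σ hσ
    exact fixes_zeta_of_fixes hΔ hp2 σ (hfix σ hσ) hζ
  · intro σ hσI hσ
    exact h2 σ hσI (fun x hx => hC.fixes_of_fixes σ (hfix σ hσ) x hx)

end Fermat.Agent.S40.EM.Frey
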