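/-
Row 62, pivot to S44 (Frey curve, multiplicative reduction at `p`): leaf **E-MULT (m4) KUMMER**
(helper24).

LOCAL statement (`Ω = PadicAlgCl p`, `I` = inertia, `I′ = I ∩ Fix(ζ_p)`).  Let `y_i ∈ Ω` be finitely
many UNITS (`‖y_i‖ = 1`) on which `I′` acts through `p`-th roots of unity (e.g. `y_i ^ p` lies in the
maximal unramified extension of `ℚ_p(ζ_p)`), and `R ≠ 0` such that `I` acts on `R` through `p`-th
roots of unity, trivially for the elements of `I′` fixing all the `y_i`.  Then `‖R‖ ∈ p ^ ℤ`.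

No field-theoretic Kummer theory: on `I′` the maps `κ_i(τ) = τ y_i / y_i`, `ρ(τ) = τ R / R` are
characters with values in `μ_p ≅ 𝔽_p` and `⋂ ker κ_i ⊆ ker ρ`, hence `ρ = ∑ k_i κ_i` (linear
algebra over `𝔽_p`, `mem_span_of_iInf_ker_le_ker`), so `c := R / ∏ y_i ^ k_i` is fixed by `I′`,
i.e. `c ∈ E_n(ζ_p)` with `E_n` unramified, whose value group is `‖ζ_p - 1‖ ^ ℤ`
(`PeuVal.exists_norm_eq_zpow`); `‖R‖ = ‖c‖`.  Also `R ^ p` is fixed by `I`, so `‖R‖ ^ p ∈ p ^ ℤ`,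
and `gcd (p, p - 1) = 1` gives `‖R‖ ∈ p ^ ℤ`.

* `exists_coeff_of_forall_eq_zero` : the abstract statement on characters `G → 𝔽_p`;
* `exists_norm_eq_zpow_of_inertia_kummer_units` : the local statement;
* `exists_norm_eq_zpow_of_kummer_units` : the GLOBAL wrapper, in the shape of
  `S40/P/PeuPack.exists_norm_eq_zpow_of_isHopfOrder` (`U ∈ ℚ̄ˣ`, inertia at `padicPlace p`).
-/
import Mathlib
import Fermat.Agent.S40.P.PeuLocal

set_option autoImplicit false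
set_option linter.style.haveILetI false
set_option linter.unusedSectionVars false

namespace Fermat.Agent.S40.EM.Kummer

open IsLocalRing IntermediateField Fermat.Agent.S55.LocalInt Fermat.Agent.S55.Local.Unram
  Fermat.Agent.S56.PT.UnramInstNorm Fermat.Agent.S56.Flat.Etale.Connected
  Fermat.Agent.S40.P.PeuVal Fermat.Agent.S40.P.PeuLocal

/-! ### Characters with values in `𝔽_p` -/

section Abstract

variable {p : ℕ} [Fact p.Prime]

/-- **Characters vanishing on the common kernel.**  `χ_i, ρ : G → 𝔽_p` additive characters of a group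
`G`, `ρ` vanishing on `⋂ ker χ_i`: then `ρ = ∑ k_i χ_i`. -/
theorem exists_coeff_of_forall_eq_zero {G : Type*} [Group G] {ι : Type*} [Fintype ι]
    (χ : ι → G → ZMod p) (ρ : G → ZMod p)
    (hχ : ∀ i g h, χ i (g * h) = χ i g + χ i h) (hρ : ∀ g h, ρ (g * h) = ρ g + ρ h)
    (h : ∀ g, (∀ i, χ i g = 0) → ρ g = 0) :
    ∃ k : ι → ZMod p, ∀ g, ρ g = ∑ i, k i * χ i g := by
  classical
  have hχ1 : ∀ i, χ i 1 = 0 := fun i => by
    have := hχ i 1 1
    rw [mul_one] at this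
    exact left_eq_add.mp this
  have hρ1 : ρ 1 = 0 := by
    have := hρ 1 1
    rw [mul_one] at this
    exact left_eq_add.mp this
  have hχinv : ∀ i g, χ i g⁻¹ = - χ i g := fun i g => by
    have := hχ i g g⁻¹
    rw [mul_inv_cancel, hχ1] at this
    exact eq_neg_of_add_eq_zero_right this.symm
  have hρinv : ∀ g, ρ g⁻¹ = - ρ g := fun g => by
    have := hρ g g⁻¹
    rw [mul_inv_cancel, hρ1] at this
    exact eq_neg_of_add_eq_zero_right this.symm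
  let Φ : G → (ι → ZMod p) × ZMod p := fun g => (fun i => χ i g, ρ g)
  have hΦmul : ∀ g h, Φ (g * h) = Φ g + Φ h := fun g h => by
    refine Prod.ext ?_ ?_
    · funext i
      exact hχ i g h
    · exact hρ g h
  let S₀ : AddSubgroup ((ι → ZMod p) × ZMod p) :=
    { carrier := Set.range Φ
      add_mem' := by
        rintro _ _ ⟨g, rfl⟩ ⟨h, rfl⟩
        exact ⟨g * h, hΦmul g h⟩
      zero_mem' := ⟨1, Prod.ext (funext fun i => hχ1 i) hρ1⟩
      neg_mem' := by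
        rintro _ ⟨g, rfl⟩
        exact ⟨g⁻¹, Prod.ext (funext fun i => hχinv i g) (hρinv g)⟩ }
  let S : Submodule (ZMod p) ((ι → ZMod p) × ZMod p) := AddSubgroup.toZModSubmodule p S₀
  have hS : ∀ x : S, ∃ g, Φ g = (x : (ι → ZMod p) × ZMod p) := fun x => x.2
  let L : ι → S →ₗ[ZMod p] ZMod p := fun i =>
    ((LinearMap.proj i).comp (LinearMap.fst (ZMod p) (ι → ZMod p) (ZMod p))).comp S.subtype
  let K : S →ₗ[ZMod p] ZMod p := (LinearMap.snd (ZMod p) (ι → ZMod p) (ZMod p)).comp S.subtype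
  have hker : ⨅ i, LinearMap.ker (L i) ≤ LinearMap.ker K := by
    intro x hx
    rw [Submodule.mem_iInf] at hx
    obtain ⟨g, hg⟩ := hS x
    rw [LinearMap.mem_ker]
    show ((x : (ι → ZMod p) × ZMod p)).2 = 0
    rw [← hg]
    refine h g fun i => ?_
    have hi := hx i
    rw [LinearMap.mem_ker] at hi
    have hi' : ((x : (ι → ZMod p) × ZMod p)).1 i = 0 := hi
    rw [← hg] at hi'
    exact hi'
  obtain ⟨c, hc⟩ := (Submodule.mem_span_range_iff_exists_fun (ZMod p)).1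
    (mem_span_of_iInf_ker_le_ker hker)
  refine ⟨c, fun g => ?_⟩
  have h1 := LinearMap.congr_fun hc ⟨Φ g, g, rfl⟩
  have h2 : K ⟨Φ g, g, rfl⟩ = ρ g := rfl
  rw [← h2, ← h1, LinearMap.sum_apply]
  refine Finset.sum_congr rfl fun i _ => ?_
  rw [LinearMap.smul_apply, smul_eq_mul]
  rfl

end Abstract

/-! ### The exponent of a `p`-th root of unity -/

section Mu

variable {p : ℕ} [Fact p.Prime] {F : Type*} [Field F]

/-- `a ↦ ζ ^ a`, `a ∈ 𝔽_p`. -/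
def mu (ζ : F) (a : ZMod p) : F := ζ ^ a.val

theorem mu_natCast {ζ : F} (hζ : IsPrimitiveRoot ζ p) (n : ℕ) : mu ζ (n : ZMod p) = ζ ^ n := by
  rw [mu, ZMod.val_natCast, ← pow_eq_pow_mod n hζ.pow_eq_one]

theorem mu_add {ζ : F} (hζ : IsPrimitiveRoot ζ p) (a b : ZMod p) :
    mu ζ (a + b) = mu ζ a * mu ζ b := by
  have h : a + b = ((a.val + b.val : ℕ) : ZMod p) := by
    rw [Nat.cast_add, ZMod.natCast_zmod_val, ZMod.natCast_zmod_val]
  rw [h, mu_natCast hζ, pow_add]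
  rfl

theorem mu_zero (ζ : F) : mu ζ (0 : ZMod p) = 1 := by
  rw [mu, ZMod.val_zero, pow_zero]

theorem mu_injective {ζ : F} (hζ : IsPrimitiveRoot ζ p) : Function.Injective (mu (p := p) ζ) := by
  intro a b hab
  exact ZMod.val_injective p (hζ.pow_inj (ZMod.val_lt a) (ZMod.val_lt b) hab)

theorem mu_mul_natCast {ζ : F} (hζ : IsPrimitiveRoot ζ p) (a : ZMod p) (n : ℕ) :
    mu ζ (a * (n : ZMod p)) = mu ζ a ^ n := by
  have h : a * (n : ZMod p) = ((a.val * n : ℕ) : ZMod p) := by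
    rw [Nat.cast_mul, ZMod.natCast_zmod_val]
  rw [h, mu_natCast hζ, pow_mul]
  rfl

theorem mu_sum {ζ : F} (hζ : IsPrimitiveRoot ζ p) {ι : Type*} (s : Finset ι) (f : ι → ZMod p) :
    mu ζ (∑ i ∈ s, f i) = ∏ i ∈ s, mu ζ (f i) := by
  classical
  induction s using Finset.induction_on with
  | empty => rw [Finset.sum_empty, Finset.prod_empty, mu_zero]
  | insert a s ha ih => rw [Finset.sum_insert ha, Finset.prod_insert ha, mu_add hζ, ih]

theorem exists_mu_eq {ζ : F} (hζ : IsPrimitiveRoot ζ p) {ξ : F} (hξ : ξ ^ p = 1) :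
    ∃ a : ZMod p, ξ = mu ζ a := by
  obtain ⟨i, -, hi⟩ := hζ.eq_pow_of_pow_eq_one hξ
  exact ⟨(i : ZMod p), by rw [mu_natCast hζ, hi]⟩

end Mu

/-! ### The local statement -/

section Local

variable {p : ℕ} [Fact p.Prime]

local notation "Ω" => PadicAlgCl p

open Classical in
/-- The exponent of `τ z / z`. -/
noncomputable def expo (ζ z : Ω) (τ : Ω ≃ₐ[ℚ_[p]] Ω) : ZMod p :=
  if h : ∃ a : ZMod p, τ z = mu ζ a * z then h.choose else 0

theorem expo_spec {ζ : Ω} (hζ : IsPrimitiveRoot ζ p) {z : Ω} (hz : z ≠ 0)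
    {τ : Ω ≃ₐ[ℚ_[p]] Ω} (h : (τ z / z) ^ p = 1) : τ z = mu ζ (expo ζ z τ) * z := by
  have hex : ∃ a : ZMod p, τ z = mu ζ a * z := by
    obtain ⟨a, ha⟩ := exists_mu_eq hζ h
    exact ⟨a, by rw [← ha, div_mul_cancel₀ _ hz]⟩
  rw [expo, dif_pos hex]
  exact hex.choose_spec

theorem expo_eq {ζ : Ω} (hζ : IsPrimitiveRoot ζ p) {z : Ω} (hz : z ≠ 0)
    {τ : Ω ≃ₐ[ℚ_[p]] Ω} {a : ZMod p} (h : τ z = mu ζ a * z) : expo ζ z τ = a := by
  have h1 : (τ z / z) ^ p = 1 := by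
    rw [h, mul_div_assoc, div_self hz, mul_one, mu, ← pow_mul, mul_comm, pow_mul, hζ.pow_eq_one,
      one_pow]
  have h2 := expo_spec hζ hz h1
  rw [h] at h2
  exact (mu_injective hζ (mul_right_cancel₀ hz h2)).symm

/-- `τ` fixes the powers of `ζ` as soon as it fixes `ζ`. -/
theorem map_mu {ζ : Ω} {τ : Ω ≃ₐ[ℚ_[p]] Ω} (hτ : τ ζ = ζ) (a : ZMod p) : τ (mu ζ a) = mu ζ a := by
  rw [mu, map_pow, hτ]

/-- **E-MULT (m4), local form.**  `y_i` units of `Ω` on which `I′ = I ∩ Fix(ζ_p)` acts through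
`μ_p`; `R ≠ 0` on which `I` acts through `μ_p`, trivially for the elements of `I′` fixing all `y_i`.
Then `‖R‖ = p ^ m`. -/
theorem exists_norm_eq_zpow_of_inertia_kummer_units {ζ : Ω} (hζ : IsPrimitiveRoot ζ p)
    {ι : Type*} [Finite ι] (y : ι → Ω) (hy1 : ∀ i, ‖y i‖ = 1)
    (hy : ∀ i, ∀ τ : Ω ≃ₐ[ℚ_[p]] Ω, IsInertial τ → τ ζ = ζ → (τ (y i) / y i) ^ p = 1)
    {R : Ω} (hR : R ≠ 0)
    (h1 : ∀ τ : Ω ≃ₐ[ℚ_[p]] Ω, IsInertial τ → (τ R / R) ^ p = 1)
    (h2 : ∀ τ : Ω ≃ₐ[ℚ_[p]] Ω, IsInertial τ → τ ζ = ζ → (∀ i, τ (y i) = y i) → τ R = R) :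
    ∃ m : ℤ, ‖R‖ = (p : ℝ) ^ m := by
  classical
  cases nonempty_fintype ι
  have hp : p.Prime := Fact.out
  have hp0 : (0 : ℝ) < p := by exact_mod_cast hp.pos
  have hπ0 := norm_sub_one_pos hζ
  have hπ1 := norm_sub_one_lt_one hζ
  have hy0 : ∀ i, y i ≠ 0 := fun i h0 => by
    have := hy1 i
    rw [h0, norm_zero] at this
    exact zero_ne_one this
  -- the group `I′`
  let I' : Subgroup (Ω ≃ₐ[ℚ_[p]] Ω) :=
    { carrier := {τ | IsInertial τ ∧ τ ζ = ζ}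
      mul_mem' := by
        rintro σ τ ⟨hσ, hσζ⟩ ⟨hτ, hτζ⟩
        refine ⟨(normInertia p).mul_mem hσ hτ, ?_⟩
        rw [AlgEquiv.mul_apply, hτζ, hσζ]
      one_mem' := ⟨(normInertia p).one_mem, rfl⟩
      inv_mem' := by
        rintro τ ⟨hτ, hτζ⟩
        refine ⟨(normInertia p).inv_mem hτ, ?_⟩
        have : τ⁻¹ (τ ζ) = ζ := by
          rw [← AlgEquiv.mul_apply, inv_mul_cancel, AlgEquiv.one_apply]
        rwa [hτζ] at this }
  -- the characters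
  have hadd : ∀ z : Ω, z ≠ 0 → (∀ τ : Ω ≃ₐ[ℚ_[p]] Ω, IsInertial τ → τ ζ = ζ → (τ z / z) ^ p = 1) →
      ∀ g h : I', expo ζ z ((g * h : I') : Ω ≃ₐ[ℚ_[p]] Ω) =
        expo ζ z (g : Ω ≃ₐ[ℚ_[p]] Ω) + expo ζ z (h : Ω ≃ₐ[ℚ_[p]] Ω) := by
    intro z hz hzp g h
    apply expo_eq hζ hz
    have hg := expo_spec hζ hz (hzp g g.2.1 g.2.2)
    have hh := expo_spec hζ hz (hzp h h.2.1 h.2.2)
    rw [Subgroup.coe_mul, AlgEquiv.mul_apply, hh, map_mul, map_mu g.2.2, hg, mu_add hζ]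
    ring
  obtain ⟨k, hk⟩ := exists_coeff_of_forall_eq_zero (G := I')
    (fun i g => expo ζ (y i) (g : Ω ≃ₐ[ℚ_[p]] Ω)) (fun g => expo ζ R (g : Ω ≃ₐ[ℚ_[p]] Ω))
    (fun i g h => hadd (y i) (hy0 i) (hy i) g h)
    (fun g h => hadd R hR (fun τ hτ _ => h1 τ hτ) g h)
    (fun g hg => by
      apply expo_eq hζ hR
      rw [mu_zero, one_mul]
      refine h2 g g.2.1 g.2.2 fun i => ?_
      have := expo_spec hζ (hy0 i) (hy i g g.2.1 g.2.2)
      rw [hg i, mu_zero, one_mul] at this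
      exact this)
  -- the element `c`
  set c : Ω := R / ∏ i, y i ^ (k i).val with hc
  have hprod0 : (∏ i, y i ^ (k i).val) ≠ 0 :=
    Finset.prod_ne_zero_iff.2 fun i _ => pow_ne_zero _ (hy0 i)
  have hc0 : c ≠ 0 := div_ne_zero hR hprod0
  have hcnorm : ‖c‖ = ‖R‖ := by
    rw [hc, norm_div, norm_prod]
    have : ∏ i, ‖y i ^ (k i).val‖ = 1 :=
      Finset.prod_eq_one fun i _ => by rw [norm_pow, hy1 i, one_pow]
    rw [this, div_one]
  have hcfix : ∀ τ : Ω ≃ₐ[ℚ_[p]] Ω, τ ∈ normInertia p → (∀ x ∈ ℚ_[p]⟮ζ⟯, τ x = x) → τ c = c := by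
    intro τ hτ hτL
    have hτζ : τ ζ = ζ := hτL ζ (mem_adjoin_simple_self ℚ_[p] ζ)
    let g : I' := ⟨τ, hτ, hτζ⟩
    have hR' := expo_spec hζ hR (h1 τ hτ)
    have hy' : ∀ i, τ (y i) = mu ζ (expo ζ (y i) τ) * y i := fun i =>
      expo_spec hζ (hy0 i) (hy i τ hτ hτζ)
    have hkg : expo ζ R τ = ∑ i, k i * expo ζ (y i) τ := hk g
    rw [hc, map_div₀, map_prod, hR', hkg, mu_sum hζ]
    have h3 : ∀ i, τ (y i ^ (k i).val) = mu ζ (k i * expo ζ (y i) τ) * y i ^ (k i).val := by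
      intro i
      rw [map_pow, hy' i, mul_pow, mul_comm (k i), ← mu_mul_natCast hζ, ZMod.natCast_zmod_val]
    rw [Finset.prod_congr rfl fun i _ => h3 i, Finset.prod_mul_distrib]
    have hμ0 : (∏ i, mu ζ (k i * expo ζ (y i) τ)) ≠ 0 := by
      refine Finset.prod_ne_zero_iff.2 fun i _ => ?_
      rw [mu]
      exact pow_ne_zero _ (hζ.ne_zero hp.ne_zero)
    rw [mul_div_mul_left _ _ hμ0]
  obtain ⟨k₂, hk₂⟩ := exists_mem_sup_En (L := ℚ_[p]⟮ζ⟯) (x := c) hcfix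
  -- `R ^ p` is fixed by inertia
  have hw : ∀ τ : Ω ≃ₐ[ℚ_[p]] Ω, τ ∈ normInertia p →
      (∀ x ∈ (⊥ : IntermediateField ℚ_[p] Ω), τ x = x) → τ (R ^ p) = R ^ p := by
    intro τ hτ _
    have h3 := h1 τ hτ
    rw [div_pow, div_eq_one_iff_eq (pow_ne_zero p hR)] at h3
    rw [map_pow, h3]
  obtain ⟨k₁, hk₁⟩ := exists_mem_sup_En (L := (⊥ : IntermediateField ℚ_[p] Ω)) hw
  rw [bot_sup_eq] at hk₁
  -- the norm of `R ^ p`
  have hunr₁ : IsUnramifiedIn ℤ_[p] (En p (k₁ + 1)) := isUnramifiedIn_En_succ p k₁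
  haveI : FiniteDimensional ℚ_[p] (En p (k₁ + 1)) := hunr₁.1
  have hw0 : (⟨R ^ p, hk₁⟩ : En p (k₁ + 1)) ≠ 0 := fun h =>
    pow_ne_zero p hR (congrArg (fun t : En p (k₁ + 1) => (t : Ω)) h)
  obtain ⟨b, hb⟩ := (isUnramifiedIn_iff_forall_norm_eq_zpow (En p (k₁ + 1))).1 hunr₁ ⟨R ^ p, hk₁⟩ hw0
  have hb' : ‖R ^ p‖ = (p : ℝ) ^ b := hb
  -- the norm of `c`
  have hunr₂ : IsUnramifiedIn ℤ_[p] (En p (k₂ + 1)) := isUnramifiedIn_En_succ p k₂
  haveI : FiniteDimensional ℚ_[p] (En p (k₂ + 1)) := hunr₂.1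
  have hFG : ∀ x : Ω, x ∈ ℚ_[p]⟮ζ⟯ ⊔ En p (k₂ + 1) →
      x ∈ (IntermediateField.adjoin (En p (k₂ + 1)) {ζ} : IntermediateField (En p (k₂ + 1)) Ω) := by
    have h3 : ℚ_[p]⟮ζ⟯ ⊔ En p (k₂ + 1) ≤
        (IntermediateField.adjoin (En p (k₂ + 1)) {ζ} :
          IntermediateField (En p (k₂ + 1)) Ω).restrictScalars ℚ_[p] := by
      refine sup_le (IntermediateField.adjoin_simple_le_iff.2 ?_) ?_
      · exact IntermediateField.mem_adjoin_simple_self (En p (k₂ + 1)) ζ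
      · intro x hx
        exact (IntermediateField.adjoin (En p (k₂ + 1)) {ζ}).algebraMap_mem ⟨x, hx⟩
    exact fun x hx => h3 hx
  obtain ⟨a, ha⟩ := exists_norm_eq_zpow hunr₂ hζ (hFG c hk₂) hc0
  rw [hcnorm] at ha
  -- compare
  have hcmp : ‖ζ - 1‖ ^ ((p : ℤ) * a) = ‖ζ - 1‖ ^ (-((p - 1 : ℕ) : ℤ) * b) := by
    rw [← zpow_eq_norm_sub_one_zpow hζ, ← hb', norm_pow, ha, mul_comm, zpow_mul, zpow_natCast]
  have hexp : (p : ℤ) * a = -((p - 1 : ℕ) : ℤ) * b := zpow_right_injective₀ hπ0 hπ1.ne hcmp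
  have hdvd : (p : ℤ) ∣ ((p - 1 : ℕ) : ℤ) * b := by
    refine ⟨-a, ?_⟩
    linarith
  have hcop : IsCoprime (p : ℤ) ((p - 1 : ℕ) : ℤ) := by
    rw [Nat.isCoprime_iff_coprime]
    have : p - 1 + 1 = p := Nat.sub_add_cancel hp.one_le
    have h3 : Nat.Coprime (p - 1 + 1) (p - 1) :=
      (Nat.coprime_self_add_left).2 (Nat.coprime_one_left _)
    rwa [this] at h3
  obtain ⟨m, rfl⟩ := hcop.dvd_of_dvd_mul_left hdvd
  refine ⟨m, ?_⟩
  rw [norm_pow, mul_comm, zpow_mul, zpow_natCast] at hb'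
  exact (pow_left_inj₀ (norm_nonneg R) (zpow_nonneg hp0.le m) hp.ne_zero).1 hb'

end Local

/-! ### The global wrapper -/

section Global

variable {p : ℕ} [Fact p.Prime]

local notation "Ω" => PadicAlgCl p
local notation "Qb" => AlgebraicClosure ℚ

/-- **E-MULT (m4), global form** (shape of `S40/P/PeuPack.exists_norm_eq_zpow_of_isHopfOrder`).
`y_i ∈ ℚ̄` finitely many `p`-adic units on which the elements of the inertia group at `padicPlace p`
fixing `ζ_p` act through `μ_p`; `U ∈ ℚ̄ˣ` on which inertia acts through `μ_p`, trivially for the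
elements fixing `ζ_p` and all the `y_i`.  Then `‖padicEmbedding p U‖ = p ^ m`. -/
theorem exists_norm_eq_zpow_of_kummer_units {ζ : Qb} (hζ : IsPrimitiveRoot ζ p)
    {ι : Type*} [Finite ι] (y : ι → Qb) (hy1 : ∀ i, ‖padicEmbedding p (y i)‖ = 1)
    (hy : ∀ i, ∀ σ ∈ (padicPlace p).inertiaSubgroupIn ℚ, σ ζ = ζ → (σ (y i) / y i) ^ p = 1)
    {U : Qb} (hU : U ≠ 0)
    (h1 : ∀ σ ∈ (padicPlace p).inertiaSubgroupIn ℚ, (σ U / U) ^ p = 1)
    (h2 : ∀ σ ∈ (padicPlace p).inertiaSubgroupIn ℚ, σ ζ = ζ → (∀ i, σ (y i) = y i) → σ U = U) :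
    ∃ m : ℤ, ‖padicEmbedding p U‖ = (p : ℝ) ^ m := by
  have hinj : Function.Injective (padicEmbedding p) := (padicEmbedding p).toRingHom.injective
  have hζΩ : IsPrimitiveRoot (padicEmbedding p ζ) p := hζ.map_of_injective hinj
  have hmem : ∀ τ : Ω ≃ₐ[ℚ_[p]] Ω, IsInertial τ →
      localGaloisToGlobal p τ ∈ (padicPlace p).inertiaSubgroupIn ℚ := by
    intro τ hτ
    have h3 : τ ∈ ((padicPlace p).inertiaSubgroupIn ℚ).comap (localGaloisToGlobal p) := by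
      rw [comap_inertiaSubgroupIn_eq]
      exact hτ
    exact h3
  have hfix : ∀ (τ : Ω ≃ₐ[ℚ_[p]] Ω) (x : Qb), τ (padicEmbedding p x) = padicEmbedding p x →
      localGaloisToGlobal p τ x = x := fun τ x h =>
    hinj (by rw [padicEmbedding_localGaloisToGlobal, h])
  refine exists_norm_eq_zpow_of_inertia_kummer_units hζΩ (fun i => padicEmbedding p (y i)) hy1 ?_
    ((map_ne_zero_iff _ hinj).2 hU) ?_ ?_
  · intro i τ hτ hτζ
    have h3 := congrArg (padicEmbedding p) (hy i _ (hmem τ hτ) (hfix τ ζ hτζ))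
    rwa [map_pow, map_div₀, padicEmbedding_localGaloisToGlobal, map_one] at h3
  · intro τ hτ
    have h3 := congrArg (padicEmbedding p) (h1 _ (hmem τ hτ))
    rwa [map_pow, map_div₀, padicEmbedding_localGaloisToGlobal, map_one] at h3
  · intro τ hτ hτζ hτy
    rw [← padicEmbedding_localGaloisToGlobal,
      h2 _ (hmem τ hτ) (hfix τ ζ hτζ) (fun i => hfix τ (y i) (hτy i))]

end Global

end Fermat.Agent.S40.EM.Kummer
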